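/-
TEAM FF19 -> S19 (+ S32), block H [HOPF] (architect helper71).  File 1: definitions.

THE CRITERION.  `G` a finite abelian group with an action `act` of `G_ℚ`; `H ⊆ Map(G, ℚ̄)` a `ℤ_(l)`-subalgebra with
(h1) `φ (σ x) = σ (φ x)`; (h2) `H` is a finitely generated module; (h3) `H` separates the points of `G`;
(h4) for `φ ∈ H` the function `(x, y) ↦ φ (x + y)` is of the form `∑ a_i(x) b_i(y)`, `a_i, b_i ∈ H`.
THEN `(G, act)` is the module of `ℚ̄`-points of a finite flat commutative group scheme over `ℤ_(l)`: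
`IsFlatMod l G act` (the shape of the conclusion of S19 and of the clause of the prelude's `IsFlatAt`).

Only Mathlib + the prelude file `Def_GaloisRep_Flat`.
-/
import Mathlib
import Fermat.Prelude.Def_GaloisRep_Flat

set_option autoImplicit false

noncomputable section

namespace Fermat.Agent.FF19.Hopf

open TensorProduct

/-- `ℚ̄` -/
abbrev Qb : Type := AlgebraicClosure ℚ
/-- `G_ℚ` -/
abbrev GQ : Type := AlgebraicClosure ℚ ≃ₐ[ℚ] AlgebraicClosure ℚ
/-- `ℤ_(l)` -/
abbrev Rl (l : ℕ) : Subring ℚ := GaloisRep.ratLocalizedAt l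

/-- `(W, act)` is the `G_ℚ`-module of `ℚ̄`-points of a finite flat commutative group scheme over `ℤ_(l)`
(same shape as the conclusion of S19 and as the clause of the prelude's `IsFlatAt`). -/
def IsFlatMod (l : ℕ) (W : Type) [AddCommGroup W] (act : GQ → W → W) : Prop :=
  ∃ (H : Type) (_ : CommRing H) (_ : HopfAlgebra (Rl l) H),
    Module.Finite (Rl l) H ∧ Module.Flat (Rl l) H ∧ Coalgebra.IsCocomm (Rl l) H ∧
    ∃ e : WithConv (H →ₐ[Rl l] Qb) ≃ W,
      (∀ f g : WithConv (H →ₐ[Rl l] Qb), e (f * g) = e f + e g) ∧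
      ∀ (σ : GQ) (f g : WithConv (H →ₐ[Rl l] Qb)), (∀ h : H, g h = σ (f h)) → e g = act σ (e f)

/-- (h4) for one function: `φ (x + y) = ∑ a_i(x) b_i(y)` with `a_i, b_i ∈ H` (any base ring `R`, any field `K`). -/
def HasComul {R K : Type} [CommRing R] [Field K] [Algebra R K] {G : Type} [AddCommGroup G]
    (H : Subalgebra R (G → K)) (φ : G → K) : Prop :=
  ∃ (n : ℕ) (a b : Fin n → (G → K)), (∀ i, a i ∈ H) ∧ (∀ i, b i ∈ H) ∧
    ∀ x y, φ (x + y) = ∑ i, a i x * b i y

/-- **THE CONTRACT OF BLOCK H**: `H` is a "Hopf order" of functions on the Galois module `(G, act)`. -/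
structure IsOrder (l : ℕ) (G : Type) [AddCommGroup G] (act : GQ → G → G)
    (H : Subalgebra (Rl l) (G → Qb)) : Prop where
  /-- every `σ` acts surjectively (true for a group action) -/
  act_surj : ∀ σ, Function.Surjective (act σ)
  /-- `σ 0 = 0` -/
  act_zero : ∀ σ, act σ 0 = 0
  /-- (h1) -/
  equiv : ∀ φ ∈ H, ∀ (σ : GQ) (x : G), φ (act σ x) = σ (φ x)
  /-- (h2) -/
  fg : Module.Finite (Rl l) H
  /-- (h3) -/
  sep : ∀ x y : G, x ≠ y → ∃ φ ∈ H, φ x ≠ φ y
  /-- (h4) -/
  comul : ∀ φ ∈ H, HasComul H φ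

/-! ### functions, pull-backs, products -/

section Abs

variable {R K : Type} [CommRing R] [Field K] [Algebra R K]

variable (R K) in
/-- the pull-back of functions along `f : X → Y`. -/
def pull {X Y : Type} (f : X → Y) : (Y → K) →ₐ[R] (X → K) :=
  AlgHom.pi fun x => Pi.evalAlgHom R (fun _ => K) (f x)

@[simp] lemma pull_apply {X Y : Type} (f : X → Y) (φ : Y → K) (x : X) :
    pull R K f φ x = φ (f x) := rfl

variable {A B X Y : Type} [CommRing A] [Algebra R A] [CommRing B] [Algebra R B]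

/-- `a ⊗ b ↦ ((x, y) ↦ a(x) b(y))`. -/
def mu (eA : A →ₐ[R] (X → K)) (eB : B →ₐ[R] (Y → K)) : A ⊗[R] B →ₐ[R] (X × Y → K) :=
  Algebra.TensorProduct.productMap ((pull R K Prod.fst).comp eA) ((pull R K Prod.snd).comp eB)

@[simp] lemma mu_tmul (eA : A →ₐ[R] (X → K)) (eB : B →ₐ[R] (Y → K)) (a : A) (b : B) (z : X × Y) :
    mu eA eB (a ⊗ₜ[R] b) z = eA a z.1 * eB b z.2 := by
  simp [mu]

/-- `A` has an `R`-basis whose image in `X → K` is linearly independent over `K`. -/
def KInd {M : Type} [AddCommGroup M] [Module R M] (e : M →ₗ[R] (X → K)) : Prop :=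
  ∃ (ι : Type) (b : Module.Basis ι R M), LinearIndependent K fun i => e (b i)

/-- the abstract input of the construction of the Hopf algebra: `A` is an `R`-algebra of functions
`G → K` (via `ev`), such that `A ⊗ A` and `A ⊗ (A ⊗ A)` are algebras of functions on `G²`, `G³`, stable under
the group operations. -/
structure Model {G : Type} [AddCommGroup G] (ev : A →ₐ[R] (G → K)) : Prop where
  injR : Function.Injective (algebraMap R K)
  inj1 : Function.Injective ev
  inj2 : Function.Injective (mu ev ev)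
  inj3 : Function.Injective (mu ev (mu ev ev))
  comul : ∀ a, ∃ t : A ⊗[R] A, ∀ x y, mu ev ev t (x, y) = ev a (x + y)
  counit : ∀ a, ∃ r : R, algebraMap R K r = ev a 0
  anti : ∀ a, ∃ b, ∀ x, ev b x = ev a (-x)

end Abs

end Fermat.Agent.FF19.Hopf

end
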