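/-
TEAM FF19 -> S19 (+ S32), block H [HOPF] (architect helper71).  File 2: INTERFACE.

OUTPUT FOR THE OTHER BLOCKS
* `Stmt_Criterion` : `IsOrder l G act H → IsFlatMod l G act`  (`G` finite);
* `Stmt_Sub`       : `IsOrder` passes to `G' ↪ G` (equivariant injective homomorphism: subgroups, block Q);
* `Stmt_Quot`, `Stmt_Prod`, `Stmt_Converse` : quotients, products, and `IsFlatMod → ∃ H, IsOrder` (for S32);
* `Stmt_ComulAdjoin` : (h4) may be checked on algebra generators (any base ring).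

Every `Stmt_xxx` is one work package: prove `theorem stmt_xxx : (deps →) Stmt_xxx` in the file named in the task.
Dependencies are explicit hypotheses `(h : Stmt_y)`.  Only Mathlib + `Hopf/Defs.lean` (+ `Hopf/Core.lean` where said).
-/
import Fermat.Agent.FF19.Hopf.Defs

set_option autoImplicit false

noncomputable section

namespace Fermat.Agent.FF19.Hopf

open TensorProduct

/-! ## Part 1 : linear independence -/

/-- H1. [`e (∑ r_i b_i) = ∑ (algebraMap r_i) • e (b_i)`; `Module.Basis.repr`, `Finsupp.linearCombination`,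
`linearIndependent_iff`; `algebraMap_smul` / `IsScalarTower R K (X → K)`.] -/
def Stmt_KIndInj : Prop :=
  ∀ (R K : Type) [CommRing R] [Field K] [Algebra R K] (M X : Type) [AddCommGroup M] [Module R M]
    (e : M →ₗ[R] (X → K)), Function.Injective (algebraMap R K) → KInd e → Function.Injective e

/-- H2. products.  [Basis `Module.Basis.tensorProduct bA bB` (index `ι × κ`), `mu_tmul`.  If
`∑_{i,j} c_ij a_i(x) b_j(y) = 0` for all `x, y`: fix `y`, independence of the `a_i` gives `∑_j c_ij b_j(y) = 0` for all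
`i, y`; independence of the `b_j` gives `c_ij = 0`.  `linearIndependent_iff'` / `Fintype`-free version with finsets of
`ι × κ`: use `Finsupp` (`linearIndependent_iff`, `Finsupp.curry`) or restrict to `s ⊆ s.image fst ×ˢ s.image snd`.] -/
def Stmt_KIndMu : Prop :=
  ∀ (R K : Type) [CommRing R] [Field K] [Algebra R K] (A B X Y : Type) [CommRing A] [Algebra R A]
    [CommRing B] [Algebra R B] (eA : A →ₐ[R] (X → K)) (eB : B →ₐ[R] (Y → K)),
    KInd eA.toLinearMap → KInd eB.toLinearMap → KInd (mu eA eB).toLinearMap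

/-- H3. GALOIS DESCENT OF LINEAR INDEPENDENCE (Artin's trick).
[Suppose not; take a non trivial relation `∑_{i ∈ s} c_i e_i = 0` with `#s` minimal (`Finset` strong induction /
`Nat.find`), all `c_i ≠ 0`, normalised `c_{i₀} = 1`.  Apply `σ`: `∑ σ(c_i) e_i(act σ x) = 0` for all `x`; `act σ` is onto, so
`∑ σ(c_i) e_i = 0`.  The difference is a shorter relation: `σ c_i = c_i` for all `σ`, so `c_i ∈ ℚ`
(`IsGalois ℚ Qb`; `InfiniteGalois.fixedField_bot`-type statement, or `IsGalois.mem_bot_iff_fixed` in the normal closure;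
see `Fermat/Agent/TW56/EC/LayerQ.lean` for a proof of `ℚ̄^{G_ℚ} = ℚ`): contradiction with the independence over `ℚ`.] -/
def Stmt_Descent : Prop :=
  ∀ (X : Type) (act : GQ → X → X), (∀ σ, Function.Surjective (act σ)) →
    ∀ (ι : Type) (e : ι → X → Qb), (∀ i σ x, e i (act σ x) = σ (e i x)) →
    LinearIndependent ℚ e → LinearIndependent Qb e

/-- H4. the ring `ℤ_(l)`.  [`q ∈ Rl l ↔ q.den.Coprime l` by `Iff.rfl`.  Every non zero `q` is `l ^ n * u` (`n : ℤ`) with
`u, u⁻¹ ∈ Rl l` (`padicValRat`, or `Nat.exists_eq_pow_mul_and_not_dvd` on `num`, `den`).  Every ideal is generated by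
`l ^ n`, `n` minimal.  (Or: `IsLocalization.AtPrime`/`IsLocalization` of `ℤ` + `IsLocalization.isPrincipalIdealRing`.)
Fraction ring: `q = num / den`, `IsFractionRing` via `IsLocalization` of a subring of a field
(`Subring`/`Subalgebra.isFractionRing`-type lemmas) or by hand.  Integrally closed: a PID is integrally closed
(`IsIntegrallyClosed`, `IsIntegrallyClosed.isIntegral_iff`).] -/
def Stmt_Rl : Prop :=
  ∀ l : ℕ, l.Prime → IsPrincipalIdealRing (Rl l) ∧ IsFractionRing (Rl l) ℚ ∧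
    ∀ q : ℚ, IsIntegral (Rl l) q → q ∈ Rl l

/-- H5. an order has a basis which is independent over `ℚ̄`.
[`H` is torsion free over the PID `Rl l` (functions with values in a field of characteristic `0`), finite: free
(`Module.free_of_finite_type_torsion_free'`), `b = Module.Free.chooseBasis`.  `fun i => (b i : G → Qb)` is independent over
`Rl l` (`LinearIndependent.map'` with `H.val`, kernel `⊥`), hence over `ℚ` (`LinearIndependent.iff_fractionRing`), hence over
`ℚ̄` (H3).] -/
def Stmt_KIndOrder : Prop :=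
  ∀ l : ℕ, l.Prime → ∀ (G : Type) [AddCommGroup G] (act : GQ → G → G)
    (H : Subalgebra (Rl l) (G → Qb)), IsOrder l G act H → KInd H.val.toLinearMap

/-! ## Part 2 : the group operations -/

/-- H6. the counit: `φ 0 ∈ ℤ_(l)`.  [`σ (φ 0) = φ (act σ 0) = φ 0`: `φ 0 = algebraMap ℚ Qb q`.  `φ` is integral over `Rl l`
(`H` is a finite module: `IsIntegral.of_finite` in `H`, then `IsIntegral.map` with
`(Pi.evalAlgHom _ _ 0).comp H.val`); `isIntegral_algebraMap_iff` (injective `ℚ → Qb`); H4.] -/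
def Stmt_Counit : Prop :=
  ∀ l : ℕ, l.Prime → ∀ (G : Type) [AddCommGroup G] (act : GQ → G → G)
    (H : Subalgebra (Rl l) (G → Qb)), IsOrder l G act H →
    ∀ φ ∈ H, ∃ r : Rl l, algebraMap (Rl l) Qb r = φ 0

/-- H7. the antipode.  [By induction on `m`: `∀ φ ∈ H, (fun x => φ (m • x)) ∈ H` (`m = 0`: the constant `φ 0` is
`algebraMap r` by H6; `m + 1`: `φ (m • x + x) = ∑ a_i (m • x) b_i x`, `H` is a ring).  `- x = (Nat.card G - 1) • x`
(`card_nsmul_eq_zero'`).] -/
def Stmt_Anti : Prop :=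
  ∀ l : ℕ, l.Prime → ∀ (G : Type) [AddCommGroup G] [Finite G] (act : GQ → G → G)
    (H : Subalgebra (Rl l) (G → Qb)), IsOrder l G act H → ∀ φ ∈ H, (fun x => φ (-x)) ∈ H

/-- H8. (h4) may be checked on generators.  [The set of `φ ∈ H` with `HasComul H φ` is a subalgebra:
constants (`n = 1`, `a = const`, `b = 1`), sums (`Fin.append` / `Fin (n + m)`; or first restate `HasComul` with an arbitrary
`Fintype`/`Finset` index and convert with `Fintype.equivFin`), products (index `Fin n × Fin m`).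
`Algebra.adjoin_induction`.] -/
def Stmt_ComulAdjoin : Prop :=
  ∀ (R K : Type) [CommRing R] [Field K] [Algebra R K] (G : Type) [AddCommGroup G]
    (S : Set (G → K)), (∀ φ ∈ S, HasComul (Algebra.adjoin R S) φ) →
    ∀ φ ∈ Algebra.adjoin R S, HasComul (Algebra.adjoin R S) φ

/-- H9. the `Model` attached to an order.  [H5 + H2 (twice) + H1: `inj1`, `inj2`, `inj3`
(`injR`: `Rl l → ℚ → Qb`).  `comul`: `t = ∑ i, ⟨a i, _⟩ ⊗ₜ ⟨b i, _⟩`, `map_sum`, `mu_tmul`.  H6, H7.] -/
def Stmt_ModelOrder : Prop :=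
  ∀ l : ℕ, l.Prime → ∀ (G : Type) [AddCommGroup G] [Finite G] (act : GQ → G → G)
    (H : Subalgebra (Rl l) (G → Qb)), IsOrder l G act H → Model H.val

/-! ## Part 3 : the points -/

/-- H10. every point of `H` is an evaluation.
[`b` from H5.  `Φ : Qb ⊗[Rl l] H →ₐ[Qb] (G → Qb)` (`Algebra.TensorProduct.lift (Algebra.ofId _ _) H.val _` or
`AlgHom.liftBaseChange`-type), `f' : Qb ⊗[Rl l] H →ₐ[Qb] Qb` from `f`.  `Algebra.TensorProduct.basis Qb b` is a basis which `Φ` maps
to the independent family `b i`: `Φ` is injective.  If `f ≠ ev_x` for all `x`, choose `φ_x ∈ H` with `f φ_x ≠ φ_x x`;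
`ψ = ∏_x (1 ⊗ φ_x - φ_x(x) ⊗ 1)`; `Φ ψ = 0` (at `y` the factor `x = y` vanishes), so `ψ = 0`, but
`f' ψ = ∏_x (f φ_x - φ_x x) ≠ 0`.] -/
def Stmt_Points : Prop :=
  ∀ l : ℕ, l.Prime → ∀ (G : Type) [AddCommGroup G] [Finite G] (act : GQ → G → G)
    (H : Subalgebra (Rl l) (G → Qb)), IsOrder l G act H →
    ∀ f : H →ₐ[Rl l] Qb, ∃ x : G, ∀ φ : H, f φ = (φ : G → Qb) x

/-- **H11. THE CRITERION.**  [`Core.lean`: `Model.hopf`, `Model.isCocomm`, `Model.conv_apply`.  `A = H`, `ev = H.val`.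
`Module.Flat`: free (H5).  `e.symm x = toConv ((Pi.evalAlgHom _ _ x).comp H.val)`; injective by (h3), onto by H10.
`e (f * g) = e f + e g`: `Model.conv_apply`.  Equivariance: (h1) and (h3).] -/
def Stmt_Criterion : Prop :=
  ∀ l : ℕ, l.Prime → ∀ (G : Type) [AddCommGroup G] [Finite G] (act : GQ → G → G)
    (H : Subalgebra (Rl l) (G → Qb)), IsOrder l G act H → IsFlatMod l G act

/-! ## Part 4 : closure properties -/

/-- H12. subobjects.  [`H' = H.map (pull _ _ j)` = the restrictions.  All clauses are immediate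
(`Subalgebra.mem_map`; finite: `Module.Finite.of_surjective` with the restriction `H → H'`;
`act' σ 0 = 0` by injectivity of `j`).] -/
def Stmt_Sub : Prop :=
  ∀ (l : ℕ) (G G' : Type) [AddCommGroup G] [AddCommGroup G'] (act : GQ → G → G)
    (act' : GQ → G' → G') (H : Subalgebra (Rl l) (G → Qb)) (j : G' →+ G), Function.Injective j →
    (∀ σ, Function.Surjective (act' σ)) → (∀ σ x, j (act' σ x) = act σ (j x)) →
    IsOrder l G act H → IsOrder l G' act' (H.map (pull (Rl l) Qb j))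

/-- H13. `IsFlatMod` is invariant under equivariant isomorphisms.  [Compose `e` with `j`.] -/
def Stmt_FlatIso : Prop :=
  ∀ (l : ℕ) (W W' : Type) [AddCommGroup W] [AddCommGroup W'] (act : GQ → W → W)
    (act' : GQ → W' → W') (j : W ≃+ W'), (∀ σ x, j (act σ x) = act' σ (j x)) →
    IsFlatMod l W act → IsFlatMod l W' act'

/-- H14. the trace over a stable subgroup.  [`∑_{g ∈ G'} φ (x + g) = ∑_i β_i a_i x`, `β_i = ∑_{g ∈ G'} b_i g`;
`σ β_i = ∑_g b_i (act σ g) = β_i` (`act σ` permutes `G'`: injective on a finite set since onto; `Finset.sum_bij` /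
`Equiv.sum_comp`), so `β_i ∈ ℚ`; `β_i` is integral over `Rl l` (sum of integral elements, as in H6); H4.] -/
def Stmt_Trace : Prop :=
  ∀ l : ℕ, l.Prime → ∀ (G : Type) [AddCommGroup G] [Finite G] (act : GQ → G → G)
    (H : Subalgebra (Rl l) (G → Qb)), IsOrder l G act H → ∀ G' : AddSubgroup G,
    (∀ σ x, act σ x ∈ G' ↔ x ∈ G') → ∀ φ ∈ H, (fun x => ∑ᶠ g : G', φ (x + g)) ∈ H

/-- H15. the `ℚ̄`-span of an algebra of functions separating the points of a finite set is everything.
[`δ_x = ∏_{y ≠ x} (φ_xy - φ_xy y) / (φ_xy x - φ_xy y)`; the span of a subalgebra is closed under products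
(`Submodule.span_mul_span` / `Algebra.adjoin`); `F = ∑_x F x • δ_x`.] -/
def Stmt_SpanTop : Prop :=
  ∀ (R K : Type) [CommRing R] [Field K] [Algebra R K] (X : Type) [Finite X]
    (H : Subalgebra R (X → K)), (∀ x y : X, x ≠ y → ∃ φ ∈ H, φ x ≠ φ y) →
    Submodule.span K (H : Set (X → K)) = ⊤

/-- H16. a saturated submodule of a finite torsion free module over a PID is a retract.
[`M ⧸ N` is finite and torsion free, hence free, hence projective: the projection `M → M ⧸ N` has a section `s`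
(`Module.projective_lifting_property` / `LinearMap.exists_rightInverse_of_surjective`-type); `p x = x - s (mk x) ∈ N`.] -/
def Stmt_Retract : Prop :=
  ∀ (R M : Type) [CommRing R] [IsDomain R] [IsPrincipalIdealRing R] [AddCommGroup M] [Module R M]
    [Module.Finite R M] (N : Submodule R M),
    (∀ (r : R) (x : M), r ≠ 0 → r • x ∈ N → x ∈ N) →
    ∃ p : M →ₗ[R] M, (∀ x, p x ∈ N) ∧ ∀ x ∈ N, p x = x

/-- H17. quotients.  `H'' = {ψ : ψ ∘ π ∈ H}`.
[(h1): `π` onto.  (h2): `H'' ↪ H`, `Rl l` noetherian.  (h3): `x̄ ≠ ȳ`; by H15 the indicator function of `x + G'`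
(`G' = ker π`) is `∑ c_i φ_i`, `φ_i ∈ H`; `T` = the trace of H14; `T 1_{x+G'} = #G' 1_{x+G'}`, so `T φ_i x ≠ T φ_i y` for some `i`, and
`T φ_i = ψ ∘ π`.  (h4): `Φ = ψ ∘ π`, `Φ (x + y) = ∑ a_i x b_i y`, `t = ∑ a_i ⊗ b_i`, `t' = ∑ T a_i ⊗ T b_i`, `n = #G'`:
`mu (n² t) = mu t'`, so `n² t = t'` (`Model.inj2`, H9).  `N` = the `G'`-invariant elements of `H` is saturated; `p` from H16;
`(p ⊗ p) t' = t'`, so `n² (p ⊗ p) t = n² t`, apply `mu`: `Φ (x + y) = ∑ (p a_i) x (p b_i) y`.] -/
def Stmt_Quot : Prop :=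
  ∀ l : ℕ, l.Prime → ∀ (G G'' : Type) [AddCommGroup G] [Finite G] [AddCommGroup G'']
    (act : GQ → G → G) (act'' : GQ → G'' → G'') (H : Subalgebra (Rl l) (G → Qb)) (π : G →+ G''),
    Function.Surjective π → (∀ σ x, π (act σ x) = act'' σ (π x)) →
    (∀ σ x, π (act σ x) = 0 ↔ π x = 0) →
    IsOrder l G act H → IsOrder l G'' act'' (H.comap (pull (Rl l) Qb π))

/-- H18. products.  [`(mu H₁.val H₂.val).range`.  (h2): image of the finite module `H₁ ⊗ H₂`.  (h3): pull-backs `φ ⊗ 1`, `1 ⊗ φ`.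
(h4): for `a ⊗ b` multiply the two decompositions (index `Fin n × Fin m`), then sums: reduce to generators by H8 or use
`TensorProduct.induction_on`.] -/
def Stmt_Prod : Prop :=
  ∀ (l : ℕ) (G₁ G₂ : Type) [AddCommGroup G₁] [AddCommGroup G₂] (act₁ : GQ → G₁ → G₁)
    (act₂ : GQ → G₂ → G₂) (H₁ : Subalgebra (Rl l) (G₁ → Qb)) (H₂ : Subalgebra (Rl l) (G₂ → Qb)),
    IsOrder l G₁ act₁ H₁ → IsOrder l G₂ act₂ H₂ →
    IsOrder l (G₁ × G₂) (fun σ z => (act₁ σ z.1, act₂ σ z.2)) (mu H₁.val H₂.val).range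

/-- H19. the converse of the criterion.  [`H₀` the Hopf algebra, `e` the bijection; `Ev : H₀ →ₐ (W → Qb)`,
`Ev h x = e.symm x h`; `H = Ev.range`.  (h1): `g = σ ∘ e.symm x` is an algebra homomorphism
(`(σ : Qb →ₐ[ℚ] Qb).restrictScalars _`), `e g = act σ x`.  (h2): image of a finite module.  (h3): `e.symm` is injective
(`DFunLike.ext`).  (h4): `comul h = ∑ a_i ⊗ b_i` (`TensorProduct.exists_finset` / `induction_on`), `AlgHom.convMul_apply`,
`e.symm (x + y) = e.symm x * e.symm y`.] -/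
def Stmt_Converse : Prop :=
  ∀ (l : ℕ) (W : Type) [AddCommGroup W] (act : GQ → W → W), (∀ σ, Function.Surjective (act σ)) →
    (∀ σ, act σ 0 = 0) → IsFlatMod l W act → ∃ H : Subalgebra (Rl l) (W → Qb), IsOrder l W act H

end Fermat.Agent.FF19.Hopf

end
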