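/-
TEAM FF19 -> S19 (+ S32), block H [HOPF], task H-7 (helper91): the antipode `φ ↦ φ ∘ (-1)`.
-/
import Fermat.Agent.FF19.Hopf.Interface

set_option autoImplicit false

noncomputable section

namespace Fermat.Agent.FF19.Hopf

open TensorProduct

/-- `H` is stable under `φ ↦ φ ∘ [m]`. -/
theorem Anti_nsmul (h6 : Stmt_Counit) (l : ℕ) (hl : l.Prime) (G : Type) [AddCommGroup G]
    (act : GQ → G → G) (H : Subalgebra (Rl l) (G → Qb)) (hH : IsOrder l G act H) (m : ℕ) :
    ∀ φ ∈ H, (fun x => φ (m • x)) ∈ H := by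
  induction m with
  | zero =>
    intro φ hφ
    obtain ⟨r, hr⟩ := h6 l hl G act H hH φ hφ
    have h : (fun x : G => φ (0 • x)) = algebraMap (Rl l) (G → Qb) r := by
      funext x
      rw [zero_smul, ← hr]
      rfl
    rw [h]
    exact H.algebraMap_mem r
  | succ m ih =>
    intro φ hφ
    obtain ⟨n, a, b, ha, hb, hab⟩ := hH.comul φ hφ
    have h : (fun x : G => φ ((m + 1) • x)) = ∑ i, (fun x => a i (m • x)) * b i := by
      funext x
      rw [succ_nsmul, hab, Finset.sum_apply]
      rfl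
    rw [h]
    exact sum_mem fun i _ => mul_mem (ih _ (ha i)) (hb i)

/-- H7. the antipode. -/
theorem stmt_Anti (h6 : Stmt_Counit) : Stmt_Anti := by
  intro l hl G _ _ act H hH φ hφ
  have h : (fun x : G => φ (-x)) = fun x => φ ((Nat.card G - 1) • x) := by
    funext x
    congr 1
    have h1 : (Nat.card G - 1) • x + x = 0 := by
      rw [← succ_nsmul, Nat.sub_add_cancel Nat.card_pos, card_nsmul_eq_zero']
    exact (eq_neg_of_add_eq_zero_left h1).symm
  rw [h]
  exact Anti_nsmul h6 l hl G act H hH _ φ hφ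

end Fermat.Agent.FF19.Hopf

end
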