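/-
TEAM FF19 -> S19 (+ S32), block H [HOPF].  H-8 : (h4) may be checked on algebra generators
(`Stmt_ComulAdjoin`).

The set of `φ` with `HasComul H φ` is stable under constants, sums and products.
-/
import Fermat.Agent.FF19.Hopf.Interface

set_option autoImplicit false

noncomputable section

namespace Fermat.Agent.FF19.Hopf

open TensorProduct

section

variable {R K : Type} [CommRing R] [Field K] [Algebra R K] {G : Type} [AddCommGroup G]

/-- `HasComul` with an arbitrary finite index type. -/
theorem ComulAdjoin_of_fintype (H : Subalgebra R (G → K)) (φ : G → K) (ι : Type) [Fintype ι]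
    (a b : ι → G → K) (ha : ∀ i, a i ∈ H) (hb : ∀ i, b i ∈ H)
    (h : ∀ x y, φ (x + y) = ∑ i, a i x * b i y) : HasComul H φ := by
  refine ⟨Fintype.card ι, fun i => a ((Fintype.equivFin ι).symm i),
    fun i => b ((Fintype.equivFin ι).symm i), fun i => ha _, fun i => hb _, fun x y => ?_⟩
  rw [h]
  exact (Equiv.sum_comp (Fintype.equivFin ι).symm (fun i => a i x * b i y)).symm

/-- constants -/
theorem ComulAdjoin_const (H : Subalgebra R (G → K)) (r : R) :
    HasComul H (algebraMap R (G → K) r) := by
  refine ComulAdjoin_of_fintype H _ Unit (fun _ => algebraMap R (G → K) r) (fun _ => 1)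
    (fun _ => H.algebraMap_mem r) (fun _ => H.one_mem) (fun x y => ?_)
  simp [Pi.algebraMap_apply]

/-- sums -/
theorem ComulAdjoin_add (H : Subalgebra R (G → K)) {φ ψ : G → K} (hφ : HasComul H φ)
    (hψ : HasComul H ψ) : HasComul H (φ + ψ) := by
  obtain ⟨n, a, b, ha, hb, h⟩ := hφ
  obtain ⟨m, a', b', ha', hb', h'⟩ := hψ
  refine ComulAdjoin_of_fintype H _ (Fin n ⊕ Fin m) (Sum.elim a a') (Sum.elim b b') ?_ ?_
    (fun x y => ?_)
  · rintro (i | i)
    · exact ha i
    · exact ha' i
  · rintro (i | i)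
    · exact hb i
    · exact hb' i
  · rw [Fintype.sum_sum_type, Pi.add_apply, h, h']
    rfl

/-- products -/
theorem ComulAdjoin_mul (H : Subalgebra R (G → K)) {φ ψ : G → K} (hφ : HasComul H φ)
    (hψ : HasComul H ψ) : HasComul H (φ * ψ) := by
  obtain ⟨n, a, b, ha, hb, h⟩ := hφ
  obtain ⟨m, a', b', ha', hb', h'⟩ := hψ
  refine ComulAdjoin_of_fintype H _ (Fin n × Fin m) (fun i => a i.1 * a' i.2)
    (fun i => b i.1 * b' i.2) (fun i => H.mul_mem (ha _) (ha' _))
    (fun i => H.mul_mem (hb _) (hb' _)) (fun x y => ?_)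
  rw [Pi.mul_apply, h, h', Finset.sum_mul_sum, Fintype.sum_prod_type]
  refine Finset.sum_congr rfl fun i _ => Finset.sum_congr rfl fun j _ => ?_
  simp only [Pi.mul_apply]
  ring

end

/-- H8. (h4) may be checked on generators. -/
theorem stmt_ComulAdjoin : Stmt_ComulAdjoin := by
  intro R K _ _ _ G _ S hS φ hφ
  induction hφ using Algebra.adjoin_induction with
  | mem x hx => exact hS x hx
  | algebraMap r => exact ComulAdjoin_const _ r
  | add x y _ _ hx hy => exact ComulAdjoin_add _ hx hy
  | mul x y _ _ hx hy => exact ComulAdjoin_mul _ hx hy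

end Fermat.Agent.FF19.Hopf

end
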