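/-
TEAM FF19 -> S19 (+ S32), block H [HOPF] : H19, the converse of the criterion (`Stmt_Converse`).
-/
import Fermat.Agent.FF19.Hopf.Interface

set_option autoImplicit false

noncomputable section

namespace Fermat.Agent.FF19.Hopf

open TensorProduct

theorem Converse_tensor {R M N : Type} [CommRing R] [AddCommGroup M] [Module R M]
    [AddCommGroup N] [Module R N] (t : M ⊗[R] N) :
    ∃ (n : ℕ) (a : Fin n → M) (b : Fin n → N), t = ∑ i, a i ⊗ₜ[R] b i := by
  obtain ⟨S, hS⟩ := TensorProduct.exists_finset t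
  refine ⟨S.card, fun i => (S.equivFin.symm i).1.1, fun i => (S.equivFin.symm i).1.2, ?_⟩
  rw [hS, ← Finset.sum_coe_sort S,
    ← Equiv.sum_comp S.equivFin.symm (fun s : S => s.1.1 ⊗ₜ[R] s.1.2)]

theorem stmt_Converse : Stmt_Converse := by
  rintro l W _ act hsurj hzero ⟨H₀, _, _, hfin, -, -, e, hadd, heq⟩
  let Ev : H₀ →ₐ[Rl l] (W → Qb) := AlgHom.pi (fun x => (e.symm x).ofConv)
  have hEv : ∀ (h : H₀) (x : W), Ev h x = (e.symm x).ofConv h := fun _ _ => rfl
  refine ⟨Ev.range, ⟨hsurj, hzero, ?_, ?_, ?_, ?_⟩⟩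
  · rintro _ ⟨h, rfl⟩ σ x
    let σ' : Qb →ₐ[Rl l] Qb := (σ : Qb →ₐ[ℚ] Qb).restrictScalars (Rl l)
    have h1 := heq σ (e.symm x) (WithConv.toConv (σ'.comp (e.symm x).ofConv)) (fun _ => rfl)
    rw [Equiv.apply_symm_apply] at h1
    show Ev h (act σ x) = σ (Ev h x)
    rw [hEv, hEv, ← h1, Equiv.symm_apply_apply]
    rfl
  · exact Module.Finite.of_surjective Ev.rangeRestrict.toLinearMap Ev.rangeRestrict_surjective
  · intro x y hxy
    by_contra hcon
    apply hxy
    apply e.symm.injective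
    apply WithConv.ext
    apply AlgHom.ext
    intro h
    by_contra hne
    exact hcon ⟨Ev h, ⟨h, rfl⟩, hne⟩
  · rintro _ ⟨h, rfl⟩
    obtain ⟨n, a, b, hab⟩ := Converse_tensor (Coalgebra.comul (R := Rl l) h)
    refine ⟨n, fun i => Ev (a i), fun i => Ev (b i), fun i => ⟨a i, rfl⟩, fun i => ⟨b i, rfl⟩,
      fun x y => ?_⟩
    have h1 : e.symm (x + y) = e.symm x * e.symm y := by
      rw [Equiv.symm_apply_eq, hadd, Equiv.apply_symm_apply, Equiv.apply_symm_apply]
    show (e.symm (x + y)).ofConv h = ∑ i, (e.symm x).ofConv (a i) * (e.symm y).ofConv (b i)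
    rw [h1]
    have h2 := AlgHom.convMul_apply (e.symm x) (e.symm y) h
    rw [h2, hab, map_sum]
    simp

end Fermat.Agent.FF19.Hopf

end
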