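/-
TEAM FF19 -> S19, block H [HOPF], package H6 : the counit, `φ 0 ∈ ℤ_(l)` (`Stmt_Counit`).
-/
import Fermat.Agent.FF19.Hopf.Interface

set_option autoImplicit false

noncomputable section

namespace Fermat.Agent.FF19.Hopf

open TensorProduct

/-- an element of `ℚ̄` fixed by `G_ℚ` is rational. -/
theorem Counit_rational (z : Qb) (hz : ∀ σ : GQ, σ z = z) : ∃ q : ℚ, algebraMap ℚ Qb q = z := by
  have : Algebra.IsAlgebraic ℚ Qb := AlgebraicClosure.isAlgebraic ℚ
  have : IsAlgClosure ℚ Qb := ⟨inferInstance, inferInstance⟩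
  have : Normal ℚ Qb := IsAlgClosure.normal ℚ Qb
  have : IsGalois ℚ Qb := ⟨⟩
  exact (InfiniteGalois.mem_range_algebraMap_iff_fixed (k := ℚ) (K := Qb) z).2 hz

/-- the values of an element of a finite subalgebra of functions are integral. -/
theorem Counit_integral (l : ℕ) (G : Type) (H : Subalgebra (Rl l) (G → Qb))
    (hfg : Module.Finite (Rl l) H) (φ : G → Qb) (hφ : φ ∈ H) (x : G) :
    IsIntegral (Rl l) (φ x) := by
  have h1 : IsIntegral (Rl l) (⟨φ, hφ⟩ : H) := IsIntegral.of_finite (Rl l) _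
  exact h1.map ((Pi.evalAlgHom (Rl l) (fun _ : G => Qb) x).comp H.val)

/-- a rational number which is integral over `ℤ_(l)` in `ℚ̄` lies in `ℤ_(l)`. -/
theorem Counit_mem (h4 : Stmt_Rl) (l : ℕ) (hl : l.Prime) (q : ℚ)
    (hq : IsIntegral (Rl l) (algebraMap ℚ Qb q)) : q ∈ Rl l := by
  apply (h4 l hl).2.2 q
  exact (isIntegral_algebraMap_iff (A := ℚ) (B := Qb) (algebraMap ℚ Qb).injective).1 hq

/-- **H6.** -/
theorem stmt_Counit (h4 : Stmt_Rl) : Stmt_Counit := by
  intro l hl G _ act H hH φ hφ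
  obtain ⟨q, hq⟩ := Counit_rational (φ 0) (fun σ => by
    rw [← hH.equiv φ hφ σ 0, hH.act_zero])
  have hint : IsIntegral (Rl l) (algebraMap ℚ Qb q) := by
    rw [hq]
    exact Counit_integral l G H hH.fg φ hφ 0
  refine ⟨⟨q, Counit_mem h4 l hl q hint⟩, ?_⟩
  rw [← hq]
  rfl

end Fermat.Agent.FF19.Hopf

end
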