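/-
TEAM FF19 -> S19, block H [HOPF] (helper71).  The Hopf algebra attached to a `Model`.
-/
import Fermat.Agent.FF19.Hopf.Defs

set_option autoImplicit false

noncomputable section

namespace Fermat.Agent.FF19.Hopf

open TensorProduct

section Lift

variable {R A B C : Type} [CommRing R] [CommRing A] [Algebra R A] [CommRing B] [Algebra R B]
  [CommRing C] [Algebra R C]

/-- lifting an algebra homomorphism through an injective one. -/
def liftInj (μ : B →ₐ[R] C) (hμ : Function.Injective μ) (f : A →ₐ[R] C)
    (h : ∀ a, ∃ b, μ b = f a) : A →ₐ[R] B :=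
  ((AlgEquiv.ofInjective μ hμ).symm : μ.range →ₐ[R] B).comp
    (f.codRestrict μ.range fun a => by obtain ⟨b, hb⟩ := h a; exact ⟨b, hb⟩)

lemma liftInj_spec (μ : B →ₐ[R] C) (hμ : Function.Injective μ) (f : A →ₐ[R] C)
    (h : ∀ a, ∃ b, μ b = f a) (a : A) : μ (liftInj μ hμ f h a) = f a := by
  have := (AlgEquiv.ofInjective μ hμ).apply_symm_apply
    (f.codRestrict μ.range (fun a => by obtain ⟨b, hb⟩ := h a; exact ⟨b, hb⟩) a)
  exact congrArg Subtype.val this

end Lift

section Core

variable {R K A G : Type} [CommRing R] [Field K] [Algebra R K] [CommRing A] [Algebra R A]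
  [AddCommGroup G] {ev : A →ₐ[R] (G → K)}

namespace Model

variable (h : Model ev)

/-- the comultiplication. -/
def comulHom : A →ₐ[R] A ⊗[R] A :=
  liftInj (mu ev ev) h.inj2 ((pull R K fun z : G × G => z.1 + z.2).comp ev) fun a => by
    obtain ⟨t, ht⟩ := h.comul a
    exact ⟨t, funext fun z => ht z.1 z.2⟩

lemma mu_comulHom (a : A) (x y : G) : mu ev ev (h.comulHom a) (x, y) = ev a (x + y) :=
  congrFun (liftInj_spec (mu ev ev) h.inj2 _ _ a) (x, y)

/-- the counit. -/
def counitHom : A →ₐ[R] R :=
  liftInj (Algebra.ofId R K) h.injR ((Pi.evalAlgHom R (fun _ : G => K) 0).comp ev) fun a => by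
    obtain ⟨r, hr⟩ := h.counit a
    exact ⟨r, hr⟩

lemma algebraMap_counitHom (a : A) : algebraMap R K (h.counitHom a) = ev a 0 :=
  liftInj_spec (Algebra.ofId R K) h.injR _ _ a

/-- the antipode. -/
def antiHom : A →ₐ[R] A :=
  liftInj ev h.inj1 ((pull R K fun x : G => -x).comp ev) fun a => by
    obtain ⟨b, hb⟩ := h.anti a
    exact ⟨b, funext hb⟩

lemma ev_antiHom (a : A) (x : G) : ev (h.antiHom a) x = ev a (-x) :=
  congrFun (liftInj_spec ev h.inj1 _ _ a) x

/-! ### evaluation of the structure maps -/

lemma mu3_assoc_tmul (s : A ⊗[R] A) (b : A) (x y z : G) :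
    mu ev (mu ev ev) (Algebra.TensorProduct.assoc R R R A A A (s ⊗ₜ[R] b)) (x, (y, z))
      = mu ev ev s (x, y) * ev b z := by
  induction s using TensorProduct.induction_on with
  | zero => simp
  | tmul a₁ a₂ => simp [mul_assoc]
  | add s₁ s₂ h₁ h₂ => simp only [TensorProduct.add_tmul, map_add, Pi.add_apply, h₁, h₂, add_mul]

lemma mu3_tmul (a : A) (s : A ⊗[R] A) (x y z : G) :
    mu ev (mu ev ev) (a ⊗ₜ[R] s) (x, (y, z)) = ev a x * mu ev ev s (y, z) := by
  simp

lemma mu3_map_comul_id (t : A ⊗[R] A) (x y z : G) :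
    mu ev (mu ev ev) (Algebra.TensorProduct.assoc R R R A A A
      (Algebra.TensorProduct.map h.comulHom (AlgHom.id R A) t)) (x, (y, z))
      = mu ev ev t (x + y, z) := by
  induction t using TensorProduct.induction_on with
  | zero => simp
  | tmul a b =>
    rw [Algebra.TensorProduct.map_tmul, mu3_assoc_tmul, h.mu_comulHom]
    simp
  | add s₁ s₂ h₁ h₂ => simp only [map_add, Pi.add_apply, h₁, h₂]

lemma mu3_map_id_comul (t : A ⊗[R] A) (x y z : G) :
    mu ev (mu ev ev) (Algebra.TensorProduct.map (AlgHom.id R A) h.comulHom t) (x, (y, z))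
      = mu ev ev t (x, y + z) := by
  induction t using TensorProduct.induction_on with
  | zero => simp
  | tmul a b =>
    rw [Algebra.TensorProduct.map_tmul, mu3_tmul, h.mu_comulHom]
    simp
  | add s₁ s₂ h₁ h₂ => simp only [map_add, Pi.add_apply, h₁, h₂]

lemma ev_lid_map_counit (t : A ⊗[R] A) (y : G) :
    ev (Algebra.TensorProduct.lid R A
      (Algebra.TensorProduct.map h.counitHom (AlgHom.id R A) t)) y = mu ev ev t (0, y) := by
  induction t using TensorProduct.induction_on with
  | zero => simp
  | tmul a b =>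
    rw [Algebra.TensorProduct.map_tmul, Algebra.TensorProduct.lid_tmul, map_smul, Pi.smul_apply,
      Algebra.smul_def, h.algebraMap_counitHom]
    simp
  | add s₁ s₂ h₁ h₂ => simp only [map_add, Pi.add_apply, h₁, h₂]

lemma ev_rid_map_counit (t : A ⊗[R] A) (x : G) :
    ev (Algebra.TensorProduct.rid R R A
      (Algebra.TensorProduct.map (AlgHom.id R A) h.counitHom t)) x = mu ev ev t (x, 0) := by
  induction t using TensorProduct.induction_on with
  | zero => simp
  | tmul a b =>
    rw [Algebra.TensorProduct.map_tmul, Algebra.TensorProduct.rid_tmul, map_smul, Pi.smul_apply,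
      Algebra.smul_def, h.algebraMap_counitHom]
    simp [mul_comm]
  | add s₁ s₂ h₁ h₂ => simp only [map_add, Pi.add_apply, h₁, h₂]

/-- the bialgebra structure. -/
@[reducible] def bialg : Bialgebra R A :=
  Bialgebra.ofAlgHom h.comulHom h.counitHom
    (by
      ext a
      apply h.inj3
      funext ⟨x, y, z⟩
      simp only [AlgHom.comp_apply]
      erw [h.mu3_map_comul_id, h.mu3_map_id_comul]
      rw [h.mu_comulHom, h.mu_comulHom, add_assoc])
    (by
      ext a
      apply (Algebra.TensorProduct.lid R A).injective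
      apply h.inj1
      funext y
      simp only [AlgHom.comp_apply]
      rw [h.ev_lid_map_counit, h.mu_comulHom, zero_add]
      simp)
    (by
      ext a
      apply (Algebra.TensorProduct.rid R R A).injective
      apply h.inj1
      funext y
      simp only [AlgHom.comp_apply]
      rw [h.ev_rid_map_counit, h.mu_comulHom, add_zero]
      simp)

lemma ev_mul_anti_rTensor (t : A ⊗[R] A) (x : G) :
    ev (LinearMap.mul' R A (h.antiHom.toLinearMap.rTensor A t)) x = mu ev ev t (-x, x) := by
  induction t using TensorProduct.induction_on with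
  | zero => simp
  | tmul a b => simp [h.ev_antiHom]
  | add s₁ s₂ h₁ h₂ => simp only [map_add, Pi.add_apply, h₁, h₂]

lemma ev_mul_anti_lTensor (t : A ⊗[R] A) (x : G) :
    ev (LinearMap.mul' R A (h.antiHom.toLinearMap.lTensor A t)) x = mu ev ev t (x, -x) := by
  induction t using TensorProduct.induction_on with
  | zero => simp
  | tmul a b => simp [h.ev_antiHom]
  | add s₁ s₂ h₁ h₂ => simp only [map_add, Pi.add_apply, h₁, h₂]

lemma ev_algebraMap_counit (a : A) (x : G) : ev (algebraMap R A (h.counitHom a)) x = ev a 0 := by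
  rw [AlgHom.commutes, Pi.algebraMap_apply, h.algebraMap_counitHom]

/-- **the Hopf algebra structure.** -/
@[reducible] def hopf : HopfAlgebra R A :=
  { h.bialg with
    antipode := h.antiHom.toLinearMap
    mul_antipode_rTensor_comul := by
      ext a
      apply h.inj1
      funext x
      refine (h.ev_mul_anti_rTensor (h.comulHom a) x).trans ?_
      rw [h.mu_comulHom, neg_add_cancel]
      exact (h.ev_algebraMap_counit a x).symm
    mul_antipode_lTensor_comul := by
      ext a
      apply h.inj1
      funext x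
      refine (h.ev_mul_anti_lTensor (h.comulHom a) x).trans ?_
      rw [h.mu_comulHom, add_neg_cancel]
      exact (h.ev_algebraMap_counit a x).symm }

lemma mu_comm (t : A ⊗[R] A) (x y : G) :
    mu ev ev (TensorProduct.comm R A A t) (x, y) = mu ev ev t (y, x) := by
  induction t using TensorProduct.induction_on with
  | zero => simp
  | tmul a b => simp [mul_comm]
  | add s₁ s₂ h₁ h₂ => simp only [map_add, Pi.add_apply, h₁, h₂]

/-- the Hopf algebra is cocommutative. -/
theorem isCocomm : @Coalgebra.IsCocomm R A _ _ _ h.hopf.toCoalgebra := by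
  let _ := h.hopf
  refine ⟨?_⟩
  ext a
  apply h.inj2
  funext ⟨x, y⟩
  refine (mu_comm (h.comulHom a) x y).trans ?_
  rw [h.mu_comulHom, add_comm]
  exact (h.mu_comulHom a x y).symm

end Model

/-- the point `ev_x`. -/
def pt (ev : A →ₐ[R] (G → K)) (x : G) : A →ₐ[R] K := (Pi.evalAlgHom R (fun _ => K) x).comp ev

@[simp] lemma pt_apply (ev : A →ₐ[R] (G → K)) (x : G) (a : A) : pt ev x a = ev a x := rfl

lemma lift_pt (t : A ⊗[R] A) (x y : G) :
    Algebra.TensorProduct.lift (pt ev x) (pt ev y) (fun _ _ => Commute.all _ _) t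
      = mu ev ev t (x, y) := by
  induction t using TensorProduct.induction_on with
  | zero => simp
  | tmul a b => simp
  | add s₁ s₂ h₁ h₂ => simp only [map_add, Pi.add_apply, h₁, h₂]

namespace Model

variable (h : Model ev)

/-- the convolution product of two points. -/
theorem conv_pt (x y : G) :
    letI := h.hopf
    (WithConv.toConv (pt ev x) * WithConv.toConv (pt ev y) : WithConv (A →ₐ[R] K))
      = WithConv.toConv (pt ev (x + y)) := by
  let _ := h.hopf
  apply WithConv.ofConv_injective
  ext a
  refine (AlgHom.convMul_apply _ _ a).trans ?_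
  refine (lift_pt (h.comulHom a) x y).trans ?_
  exact h.mu_comulHom a x y

end Model

end Core

end Fermat.Agent.FF19.Hopf

end
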