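/-
TEAM FF19 -> S19, block H [HOPF] (helper71).  H11 : THE CRITERION.
-/
import Fermat.Agent.FF19.Hopf.Interface
import Fermat.Agent.FF19.Hopf.Core

set_option autoImplicit false

noncomputable section

namespace Fermat.Agent.FF19.Hopf

open TensorProduct

/-- **H11. THE CRITERION.** -/
theorem stmt_Criterion (h5 : Stmt_KIndOrder) (h9 : Stmt_ModelOrder) (h10 : Stmt_Points) :
    Stmt_Criterion := by
  intro l hl G _ _ act H hH
  have hM : Model H.val := h9 l hl G act H hH
  have hflat : Module.Flat (Rl l) H := by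
    obtain ⟨ι, b, -⟩ := h5 l hl G act H hH
    have := Module.Free.of_basis b
    infer_instance
  have hbij : Function.Bijective
      (fun x : G => (WithConv.toConv (pt H.val x) : WithConv (H →ₐ[Rl l] Qb))) := by
    constructor
    · intro x y hxy
      by_contra hne
      obtain ⟨φ, hφ, hφxy⟩ := hH.sep x y hne
      apply hφxy
      have := congrArg (fun f : WithConv (H →ₐ[Rl l] Qb) => f.ofConv ⟨φ, hφ⟩) hxy
      exact this
    · intro f
      obtain ⟨x, hx⟩ := h10 l hl G act H hH f.ofConv
      refine ⟨x, ?_⟩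
      apply WithConv.ofConv_injective
      ext φ
      exact (hx φ).symm
  let E : G ≃ WithConv (H →ₐ[Rl l] Qb) := Equiv.ofBijective _ hbij
  have hE : ∀ x, E x = WithConv.toConv (pt H.val x) := fun _ => rfl
  refine ⟨H, inferInstance, hM.hopf, hH.fg, hflat, hM.isCocomm, E.symm, ?_, ?_⟩
  · intro f g
    obtain ⟨x, rfl⟩ := E.surjective f
    obtain ⟨y, rfl⟩ := E.surjective g
    rw [Equiv.symm_apply_apply, Equiv.symm_apply_apply, Equiv.symm_apply_eq, hE, hE, hE]
    exact hM.conv_pt x y
  · intro σ f g hfg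
    obtain ⟨x, rfl⟩ := E.surjective f
    rw [Equiv.symm_apply_apply, Equiv.symm_apply_eq, hE]
    apply WithConv.ofConv_injective
    ext φ
    refine (hfg φ).trans ?_
    exact (hH.equiv φ.1 φ.2 σ x).symm

end Fermat.Agent.FF19.Hopf

end
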