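/-
TEAM FF19 -> S19 (+ S32), block H [HOPF].  H3: Galois descent of linear independence (Artin's trick).
(helper70, task 1741)
-/
import Fermat.Agent.FF19.Hopf.Interface

set_option autoImplicit false

noncomputable section

namespace Fermat.Agent.FF19.Hopf

open TensorProduct

/-- `ℚ̄^{G_ℚ} = ℚ`. -/
theorem Descent_fixed (x : Qb) (h : ∀ σ : GQ, σ x = x) : ∃ r : ℚ, algebraMap ℚ Qb r = x := by
  have : Algebra.IsAlgebraic ℚ Qb := AlgebraicClosure.isAlgebraic ℚ
  have : IsAlgClosure ℚ Qb := ⟨inferInstance, inferInstance⟩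
  have : Normal ℚ Qb := IsAlgClosure.normal ℚ Qb
  have : IsGalois ℚ Qb := ⟨⟩
  exact (InfiniteGalois.mem_range_algebraMap_iff_fixed x).2 h

/-- a relation can be twisted by `σ`. -/
theorem Descent_twist {X : Type} (act : GQ → X → X) (hs : ∀ σ, Function.Surjective (act σ))
    {ι : Type} (e : ι → X → Qb) (he : ∀ i σ x, e i (act σ x) = σ (e i x)) (s : Finset ι)
    (g : ι → Qb) (h : ∑ i ∈ s, g i • e i = 0) (σ : GQ) : ∑ i ∈ s, σ (g i) • e i = 0 := by
  funext y
  obtain ⟨x, rfl⟩ := hs σ y
  have h1 : ∑ i ∈ s, g i * e i x = 0 := by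
    have := congrFun h x
    simpa [Finset.sum_apply] using this
  have h2 := congrArg σ h1
  rw [map_sum, map_zero] at h2
  rw [Finset.sum_apply, Pi.zero_apply, ← h2]
  refine Finset.sum_congr rfl fun i _ => ?_
  rw [Pi.smul_apply, smul_eq_mul, he, map_mul]

theorem stmt_Descent : Stmt_Descent := by
  classical
  intro X act hs ι e he hind
  rw [linearIndependent_iff']
  -- strong induction on the cardinality of the support
  have key : ∀ (n : ℕ) (s : Finset ι), s.card = n → ∀ g : ι → Qb, ∑ i ∈ s, g i • e i = 0 →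
      ∀ i ∈ s, g i = 0 := by
    intro n
    induction n using Nat.strong_induction_on with
    | _ n ih =>
      intro s hsn g hg
      by_contra hcon
      push Not at hcon
      obtain ⟨i₀, hi₀, hgi₀⟩ := hcon
      -- normalise
      set g' : ι → Qb := fun i => (g i₀)⁻¹ * g i with hg'
      have hg'0 : g' i₀ = 1 := inv_mul_cancel₀ hgi₀
      have hrel : ∑ i ∈ s, g' i • e i = 0 := by
        have : ∑ i ∈ s, g' i • e i = (g i₀)⁻¹ • ∑ i ∈ s, g i • e i := by
          rw [Finset.smul_sum]
          exact Finset.sum_congr rfl fun i _ => by rw [hg', smul_smul]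
        rw [this, hg, smul_zero]
      -- all coefficients are fixed by Galois
      have hfix : ∀ i ∈ s, ∀ σ : GQ, σ (g' i) = g' i := by
        intro i hi σ
        by_cases hii : i = i₀
        · rw [hii, hg'0, map_one]
        have hσ := Descent_twist act hs e he s g' hrel σ
        have hdiff : ∑ j ∈ s.erase i₀, (σ (g' j) - g' j) • e j = 0 := by
          have h1 : ∑ j ∈ s, (σ (g' j) - g' j) • e j = 0 := by
            simp only [sub_smul, Finset.sum_sub_distrib, hσ, hrel, sub_zero]
          rw [← Finset.add_sum_erase s _ hi₀, hg'0, map_one, sub_self, zero_smul, zero_add] at h1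
          exact h1
        have hcard : (s.erase i₀).card < n := by
          rw [Finset.card_erase_of_mem hi₀, hsn]
          have : 0 < s.card := Finset.card_pos.2 ⟨i₀, hi₀⟩
          omega
        have := ih _ hcard (s.erase i₀) rfl _ hdiff i (Finset.mem_erase.2 ⟨hii, hi⟩)
        exact sub_eq_zero.1 this
      -- so they are rational
      have hrat : ∀ i : ι, ∃ r : ℚ, i ∈ s → algebraMap ℚ Qb r = g' i := by
        intro i
        by_cases hi : i ∈ s
        · obtain ⟨r, hr⟩ := Descent_fixed (g' i) (hfix i hi)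
          exact ⟨r, fun _ => hr⟩
        · exact ⟨0, fun h => absurd h hi⟩
      choose r hr using hrat
      have hrelQ : ∑ i ∈ s, r i • e i = 0 := by
        rw [← hrel]
        refine Finset.sum_congr rfl fun i hi => ?_
        rw [← hr i hi, algebraMap_smul]
      have hz := (linearIndependent_iff'.1 hind) s r hrelQ i₀ hi₀
      have h1 := hr i₀ hi₀
      rw [hz, map_zero, hg'0] at h1
      exact zero_ne_one h1
  intro s g hg i hi
  exact key s.card s rfl g hg i hi

end Fermat.Agent.FF19.Hopf

end
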