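/-
TEAM FF19 -> S19, block H [HOPF], task H-1 (helper72): `KInd` implies injective.
-/
import Fermat.Agent.FF19.Hopf.Interface

set_option autoImplicit false

noncomputable section

namespace Fermat.Agent.FF19.Hopf

open TensorProduct

theorem stmt_KIndInj : Stmt_KIndInj := by
  intro R K _ _ _ M X _ _ e hinj ⟨ι, b, h⟩
  have h1 : LinearIndependent R (fun i => e (b i)) := by
    refine h.restrict_scalars ?_
    intro r s hrs
    apply hinj
    simpa [Algebra.smul_def] using hrs
  have h2 : e = (Finsupp.linearCombination R (fun i => e (b i))) ∘ₗ b.repr.toLinearMap := by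
    apply b.ext
    intro i
    simp
  rw [h2]
  exact (linearIndependent_iff_injective_finsuppLinearCombination.1 h1).comp b.repr.injective

end Fermat.Agent.FF19.Hopf

end
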