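/-
TEAM FF19 -> S19 (+ S32), block H [HOPF], H-2 : `KInd` for products of function algebras.
-/
import Fermat.Agent.FF19.Hopf.Interface

set_option autoImplicit false

noncomputable section

namespace Fermat.Agent.FF19.Hopf

open TensorProduct

/-- products of independent families of functions are independent. -/
theorem KIndMu_indep {K ι κ X Y : Type} [Field K] (a : ι → X → K) (b : κ → Y → K)
    (ha : LinearIndependent K a) (hb : LinearIndependent K b) :
    LinearIndependent K (fun (p : ι × κ) (z : X × Y) => a p.1 z.1 * b p.2 z.2) := by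
  classical
  rw [linearIndependent_iff'] at ha hb ⊢
  intro s g hg p hp
  -- extend by zero
  have hsub : s ⊆ (s.image Prod.fst) ×ˢ (s.image Prod.snd) := by
    intro q hq
    exact Finset.mem_product.2 ⟨Finset.mem_image_of_mem _ hq, Finset.mem_image_of_mem _ hq⟩
  have hsum : ∀ x y, ∑ i ∈ s.image Prod.fst, ∑ j ∈ s.image Prod.snd,
      (if (i, j) ∈ s then g (i, j) else 0) * (a i x * b j y) = 0 := by
    intro x y
    rw [← Finset.sum_product']
    have h1 := congrFun hg (x, y)
    simp only [Finset.sum_apply, Pi.smul_apply, smul_eq_mul, Pi.zero_apply] at h1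
    refine Eq.trans (Eq.symm ?_) h1
    apply Finset.sum_subset_zero_on_sdiff hsub
    · intro q hq
      rw [if_neg (Finset.mem_sdiff.1 hq).2, zero_mul]
    · intro q hq
      rw [if_pos hq]
  have h2 : ∀ y, ∀ i ∈ s.image Prod.fst, ∑ j ∈ s.image Prod.snd,
      (if (i, j) ∈ s then g (i, j) else 0) * b j y = 0 := by
    intro y
    apply ha (s.image Prod.fst)
      (fun i => ∑ j ∈ s.image Prod.snd, (if (i, j) ∈ s then g (i, j) else 0) * b j y)
    funext x
    simp only [Finset.sum_apply, Pi.smul_apply, smul_eq_mul, Pi.zero_apply]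
    refine Eq.trans ?_ (hsum x y)
    apply Finset.sum_congr rfl
    intro i _
    rw [Finset.sum_mul]
    apply Finset.sum_congr rfl
    intro j _
    ring
  have h3 : ∀ i ∈ s.image Prod.fst, ∀ j ∈ s.image Prod.snd,
      (if (i, j) ∈ s then g (i, j) else 0) = 0 := by
    intro i hi
    apply hb (s.image Prod.snd) (fun j => if (i, j) ∈ s then g (i, j) else 0)
    funext y
    simp only [Finset.sum_apply, Pi.smul_apply, smul_eq_mul, Pi.zero_apply]
    exact h2 y i hi
  have h4 := h3 p.1 (Finset.mem_image_of_mem _ hp) p.2 (Finset.mem_image_of_mem _ hp)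
  rwa [if_pos (by exact hp)] at h4

/-- H2. -/
theorem stmt_KIndMu : Stmt_KIndMu := by
  intro R K _ _ _ A B X Y _ _ _ _ eA eB hA hB
  obtain ⟨ι, bA, hbA⟩ := hA
  obtain ⟨κ, bB, hbB⟩ := hB
  refine ⟨ι × κ, bA.tensorProduct bB, ?_⟩
  have h := KIndMu_indep (fun i => eA (bA i)) (fun j => eB (bB j)) hbA hbB
  convert h using 1
  funext p
  funext z
  show mu eA eB ((bA.tensorProduct bB) p) z = _
  rw [Module.Basis.tensorProduct_apply', mu_tmul]

end Fermat.Agent.FF19.Hopf

end
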