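/-
TEAM FF19 -> S19 (+ S32), block H [HOPF] (architect helper71), task H-5 (helper77):
an order has a basis which is linearly independent over `ℚ̄` (`Stmt_KIndOrder`).
-/
import Fermat.Agent.FF19.Hopf.Interface

set_option autoImplicit false
set_option linter.style.haveILetI false

noncomputable section

namespace Fermat.Agent.FF19.Hopf

open TensorProduct

/-- H5. -/
theorem stmt_KIndOrder (h4 : Stmt_Rl) (h3 : Stmt_Descent) : Stmt_KIndOrder := by
  intro l hl G _ act H hH
  obtain ⟨hPID, hFrac, -⟩ := h4 l hl
  haveI := hPID
  haveI := hFrac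
  haveI := hH.fg
  haveI : Module.IsTorsionFree (Rl l) H := by
    refine Module.IsTorsionFree.of_smul_eq_zero fun r φ h => ?_
    by_cases hr : r = 0
    · exact Or.inl hr
    · refine Or.inr (Subtype.ext (funext fun x => ?_))
      have h1 : (r • (φ : G → Qb)) x = 0 := congrFun (congrArg Subtype.val h) x
      rw [Pi.smul_apply, Algebra.smul_def] at h1
      have h2 : algebraMap (Rl l) Qb r ≠ 0 := by
        intro h0
        apply hr
        have h3 : algebraMap ℚ Qb (r : ℚ) = 0 := h0
        exact Subtype.ext ((map_eq_zero _).1 h3)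
      exact (mul_eq_zero.1 h1).resolve_left h2
  haveI : Module.Free (Rl l) H := Module.free_of_finite_type_torsion_free'
  let b := Module.Free.chooseBasis (Rl l) H
  refine ⟨_, b, ?_⟩
  have h1 : LinearIndependent (Rl l) fun i => H.val.toLinearMap (b i) :=
    b.linearIndependent.map' H.val.toLinearMap
      (LinearMap.ker_eq_bot.2 (fun x y hxy => Subtype.ext hxy))
  have h2 : LinearIndependent ℚ fun i => H.val.toLinearMap (b i) :=
    (LinearIndependent.iff_fractionRing (Rl l) ℚ).1 h1
  exact h3 G act hH.act_surj _ _ (fun i σ x => hH.equiv _ (b i).2 σ x) h2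

end Fermat.Agent.FF19.Hopf
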