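/-
TEAM FF19 -> S19 (+ S32), block H [HOPF], H9 : the `Model` attached to an order (`Stmt_ModelOrder`).
-/
import Fermat.Agent.FF19.Hopf.Interface

set_option autoImplicit false

noncomputable section

namespace Fermat.Agent.FF19.Hopf

open TensorProduct

/-- **H9** -/
theorem stmt_ModelOrder (h1 : Stmt_KIndInj) (h2 : Stmt_KIndMu) (h5 : Stmt_KIndOrder)
    (h6 : Stmt_Counit) (h7 : Stmt_Anti) : Stmt_ModelOrder := by
  intro l hl G _ _ act H hH
  have hR : Function.Injective (algebraMap (Rl l) Qb) := by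
    intro a b hab
    exact Subtype.ext ((algebraMap ℚ Qb).injective hab)
  have k1 : KInd H.val.toLinearMap := h5 l hl G act H hH
  have k2 : KInd (mu H.val H.val).toLinearMap := h2 _ _ _ _ _ _ _ _ k1 k1
  have k3 : KInd (mu H.val (mu H.val H.val)).toLinearMap := h2 _ _ _ _ _ _ _ _ k1 k2
  refine ⟨hR, h1 _ _ _ _ _ hR k1, h1 _ _ _ _ _ hR k2, h1 _ _ _ _ _ hR k3, ?_, ?_, ?_⟩
  · intro a
    obtain ⟨n, α, β, hα, hβ, hab⟩ := hH.comul a a.2
    refine ⟨∑ i, (⟨α i, hα i⟩ : H) ⊗ₜ[Rl l] (⟨β i, hβ i⟩ : H), fun x y => ?_⟩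
    rw [map_sum, Finset.sum_apply]
    simp only [mu_tmul]
    exact (hab x y).symm
  · intro a
    exact h6 l hl G act H hH a a.2
  · intro a
    exact ⟨⟨_, h7 l hl G act H hH a a.2⟩, fun x => rfl⟩

end Fermat.Agent.FF19.Hopf

end
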