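/-
TEAM FF19 -> S19 (+ S32), block H [HOPF] (architect helper71), leaf H-10: every point of `H` is an evaluation.
Tensor free proof: `f` extends to a `ℚ̄`-linear form `F` on `G → ℚ̄` (the basis of `H` is independent over `ℚ̄`);
expand `∏_x (φ_x - φ_x(x)) = 0`.
-/
import Fermat.Agent.FF19.Hopf.Interface

set_option autoImplicit false

noncomputable section

namespace Fermat.Agent.FF19.Hopf

open TensorProduct

/-- an `R`-linear form on a module of functions with a `K`-independent basis extends to a `K`-linear form. -/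
theorem Points_extend {R K : Type} [CommRing R] [Field K] [Algebra R K] {X : Type}
    (H : Subalgebra R (X → K)) (hK : KInd H.val.toLinearMap) (f : H →ₗ[R] K) :
    ∃ F : (X → K) →ₗ[K] K, ∀ φ : H, F (φ : X → K) = f φ := by
  obtain ⟨ι, b, hb⟩ := hK
  obtain ⟨F, hF⟩ := LinearMap.exists_extend
    ((Module.Basis.span hb).constr K (fun i => f (b i)))
  have hFb : ∀ i, F ((b i : H) : X → K) = f (b i) := by
    intro i
    have h1 := LinearMap.congr_fun hF (Module.Basis.span hb i)
    rw [Module.Basis.constr_basis] at h1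
    rw [← h1, Module.Basis.span_apply]
    rfl
  refine ⟨F, fun φ => ?_⟩
  have h2 : (F.restrictScalars R).comp H.val.toLinearMap = f := by
    apply b.ext
    intro i
    exact hFb i
  exact LinearMap.congr_fun h2 φ

/-- H10. -/
theorem stmt_Points (h5 : Stmt_KIndOrder) : Stmt_Points := by
  classical
  intro l hl G _ _ act H hH f
  have := Fintype.ofFinite G
  obtain ⟨F, hF⟩ := Points_extend H (h5 l hl G act H hH) f.toLinearMap
  by_contra hcon
  push Not at hcon
  choose Φ hΦ using hcon
  -- the product vanishes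
  have h0 : ∏ x, (((Φ x : H) : G → Qb) + (fun _ => - ((Φ x : H) : G → Qb) x)) = 0 := by
    funext y
    rw [Finset.prod_apply]
    exact Finset.prod_eq_zero (Finset.mem_univ y) (by simp)
  rw [Finset.prod_add] at h0
  have h1 : ∀ t : Finset G, (∏ i ∈ t, ((Φ i : H) : G → Qb)) *
      ∏ i ∈ Finset.univ \ t, (fun _ : G => - ((Φ i : H) : G → Qb) i)
      = (∏ i ∈ Finset.univ \ t, (- ((Φ i : H) : G → Qb) i)) • (((∏ i ∈ t, Φ i : H)) : G → Qb) := by
    intro t
    funext y
    have e1 : (((∏ i ∈ t, Φ i : H)) : G → Qb) = ∏ i ∈ t, ((Φ i : H) : G → Qb) :=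
      map_prod H.val _ _
    rw [Pi.mul_apply, Pi.smul_apply, smul_eq_mul, e1, mul_comm]
    congr 1
    rw [Finset.prod_apply]
  have h2 := congrArg F h0
  rw [map_zero, map_sum] at h2
  have h3 : ∏ x, (f (Φ x) + (- ((Φ x : H) : G → Qb) x)) = 0 := by
    rw [Finset.prod_add, ← h2]
    refine Finset.sum_congr rfl fun t _ => ?_
    rw [h1 t, map_smul, hF, smul_eq_mul, mul_comm]
    congr 1
    exact (map_prod f _ _).symm
  rw [Finset.prod_eq_zero_iff] at h3
  obtain ⟨x, _, hx⟩ := h3
  exact hΦ x (by linear_combination hx)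

end Fermat.Agent.FF19.Hopf

end
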