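/-
TEAM FF19 -> S19 (+ S32), block H [HOPF].  H17: quotients of orders (helper57).
-/
import Fermat.Agent.FF19.Hopf.Interface

set_option autoImplicit false
set_option linter.unusedSectionVars false

noncomputable section

namespace Fermat.Agent.FF19.Hopf

open TensorProduct

section QuotAux

variable {G G'' : Type} [AddCommGroup G] [Finite G] [AddCommGroup G'']

/-- the trace over the kernel of `π`. -/
def Quot_T (π : G →+ G'') (F : G → Qb) : G → Qb := fun x => ∑ᶠ g : π.ker, F (x + g)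

lemma Quot_T_eq (π : G →+ G'') [Fintype π.ker] (F : G → Qb) (x : G) :
    Quot_T π F x = ∑ g : π.ker, F (x + g) := by
  unfold Quot_T
  rw [finsum_eq_sum_of_fintype]

lemma Quot_T_inv (π : G →+ G'') (F : G → Qb) (x g : G) (hg : π g = 0) :
    Quot_T π F (x + g) = Quot_T π F x := by
  classical
  let _ : Fintype π.ker := Fintype.ofFinite _
  rw [Quot_T_eq, Quot_T_eq]
  refine Fintype.sum_equiv (Equiv.addLeft (⟨g, hg⟩ : π.ker)) _ _ ?_
  intro u
  simp [add_assoc]

lemma Quot_descend (π : G →+ G'') (hπ : Function.Surjective π) (Θ : G → Qb)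
    (hinv : ∀ x g, π g = 0 → Θ (x + g) = Θ x) : ∃ ψ : G'' → Qb, ∀ x, ψ (π x) = Θ x := by
  refine ⟨fun z => Θ (Function.surjInv hπ z), fun x => ?_⟩
  have h1 : π (Function.surjInv hπ (π x)) = π x := Function.surjInv_eq hπ (π x)
  have h2 : Function.surjInv hπ (π x) = x + (Function.surjInv hπ (π x) - x) := by abel
  show Θ (Function.surjInv hπ (π x)) = Θ x
  rw [h2]
  apply hinv
  rw [map_sub, h1, sub_self]

/-- (h3) for the quotient. -/
lemma Quot_sep (h15 : Stmt_SpanTop) (l : ℕ) (π : G →+ G'') (H : Subalgebra (Rl l) (G → Qb))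
    (hsep : ∀ x y : G, x ≠ y → ∃ φ ∈ H, φ x ≠ φ y) (x y : G) (hxy : π x ≠ π y) :
    ∃ φ ∈ H, Quot_T π φ x ≠ Quot_T π φ y := by
  classical
  let _ : Fintype π.ker := Fintype.ofFinite _
  by_contra hcon
  push Not at hcon
  let L : (G → Qb) →ₗ[Qb] Qb :=
    ∑ g : π.ker, ((LinearMap.proj (x + (g : G)) : (G → Qb) →ₗ[Qb] Qb) - LinearMap.proj (y + (g : G)))
  have hL : ∀ F : G → Qb, L F = Quot_T π F x - Quot_T π F y := by
    intro F
    rw [Quot_T_eq, Quot_T_eq, ← Finset.sum_sub_distrib]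
    simp [L, LinearMap.sum_apply]
  have h1 : Submodule.span Qb (H : Set (G → Qb)) ≤ LinearMap.ker L := by
    rw [Submodule.span_le]
    intro φ hφ
    rw [SetLike.mem_coe, LinearMap.mem_ker, hL, hcon φ hφ, sub_self]
  rw [h15 (Rl l) Qb G H hsep] at h1
  have h2 : L (fun z => if π z = π x then 1 else 0) = 0 := h1 Submodule.mem_top
  rw [hL, Quot_T_eq, Quot_T_eq] at h2
  have h3 : ∀ g : π.ker, π (x + (g : G)) = π x := by
    intro g
    rw [map_add, (AddMonoidHom.mem_ker).1 g.2, add_zero]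
  have h4 : ∀ g : π.ker, π (y + (g : G)) ≠ π x := by
    intro g
    rw [map_add, (AddMonoidHom.mem_ker).1 g.2, add_zero]
    exact fun h => hxy h.symm
  simp only [h3, h4, if_true, if_false, Finset.sum_const_zero, sub_zero, Finset.sum_const,
    Finset.card_univ, nsmul_eq_mul, mul_one] at h2
  have h5 : Fintype.card π.ker ≠ 0 := Fintype.card_ne_zero
  exact h5 (by exact_mod_cast h2)

/-- (h4) for the quotient: an invariant function has an invariant decomposition. -/
lemma Quot_comul (h4 : Stmt_Rl) (h9 : Stmt_ModelOrder) (h14 : Stmt_Trace) (h16 : Stmt_Retract)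
    (l : ℕ) (hl : l.Prime) (act : GQ → G → G) (H : Subalgebra (Rl l) (G → Qb)) (π : G →+ G'')
    (hker : ∀ σ x, π (act σ x) = 0 ↔ π x = 0) (hO : IsOrder l G act H)
    (Φ : G → Qb) (hΦH : Φ ∈ H) (hΦ : ∀ x g, π g = 0 → Φ (x + g) = Φ x) :
    ∃ (n : ℕ) (a b : Fin n → (G → Qb)), (∀ i, a i ∈ H) ∧ (∀ i, b i ∈ H) ∧
      (∀ i x g, π g = 0 → a i (x + g) = a i x) ∧ (∀ i x g, π g = 0 → b i (x + g) = b i x) ∧
      ∀ x y, Φ (x + y) = ∑ i, a i x * b i y := by
  classical
  let _ : Fintype π.ker := Fintype.ofFinite _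
  have _ : IsPrincipalIdealRing (Rl l) := (h4 l hl).1
  have _ : Module.Finite (Rl l) H := hO.fg
  have hM : Model H.val := h9 l hl G act H hO
  obtain ⟨n, a, b, ha, hb, hab⟩ := hO.comul Φ hΦH
  -- the trace on `H`
  have hT : ∀ φ ∈ H, Quot_T π φ ∈ H := fun φ hφ =>
    h14 l hl G act H hO π.ker (fun σ x => by
      rw [AddMonoidHom.mem_ker, AddMonoidHom.mem_ker]; exact hker σ x) φ hφ
  -- the invariant elements
  let N : Submodule (Rl l) H :=
    { carrier := {φ | ∀ x g, π g = 0 → (φ : G → Qb) (x + g) = (φ : G → Qb) x}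
      add_mem' := by
        intro φ ψ hφ hψ x g hg
        simp only [Subalgebra.coe_add, Pi.add_apply, hφ x g hg, hψ x g hg]
      zero_mem' := by
        intro x g _
        simp
      smul_mem' := by
        intro r φ hφ x g hg
        simp only [Subalgebra.coe_smul, Pi.smul_apply, hφ x g hg] }
  have hNmem : ∀ φ : H, φ ∈ N ↔ ∀ x g, π g = 0 → (φ : G → Qb) (x + g) = (φ : G → Qb) x :=
    fun φ => Iff.rfl
  have hsat : ∀ (r : Rl l) (φ : H), r ≠ 0 → r • φ ∈ N → φ ∈ N := by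
    intro r φ hr h x g hg
    have h1 := h x g hg
    simp only [Subalgebra.coe_smul, Pi.smul_apply] at h1
    rw [Algebra.smul_def, Algebra.smul_def] at h1
    exact mul_left_cancel₀ ((map_ne_zero_iff _ hM.injR).2 hr) h1
  obtain ⟨p, hpN, hpid⟩ := h16 (Rl l) H N hsat
  -- the tensors
  let c : ℕ := Fintype.card π.ker
  have hc : (c : Qb) ≠ 0 := by
    have : c ≠ 0 := Fintype.card_ne_zero
    exact_mod_cast this
  let A : Fin n → H := fun i => ⟨a i, ha i⟩
  let B : Fin n → H := fun i => ⟨b i, hb i⟩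
  let TA : Fin n → H := fun i => ⟨Quot_T π (a i), hT _ (ha i)⟩
  let TB : Fin n → H := fun i => ⟨Quot_T π (b i), hT _ (hb i)⟩
  let t : H ⊗[Rl l] H := ∑ i, A i ⊗ₜ[Rl l] B i
  let t' : H ⊗[Rl l] H := ∑ i, TA i ⊗ₜ[Rl l] TB i
  have hmut : ∀ x y, mu H.val H.val t (x, y) = Φ (x + y) := by
    intro x y
    rw [hab x y]
    simp [t, A, B, map_sum, Finset.sum_apply]
  have hmut' : ∀ x y, mu H.val H.val t' (x, y) = (c : Qb) ^ 2 * Φ (x + y) := by
    intro x y
    have h1 : mu H.val H.val t' (x, y) = ∑ i, Quot_T π (a i) x * Quot_T π (b i) y := by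
      simp [t', TA, TB, map_sum, Finset.sum_apply]
    rw [h1]
    simp only [Quot_T_eq, Finset.sum_mul_sum]
    rw [Finset.sum_comm]
    have h2 : ∀ g : π.ker, ∑ i, ∑ g' : π.ker, a i (x + g) * b i (y + g') = (c : Qb) * Φ (x + y) := by
      intro g
      rw [Finset.sum_comm]
      have h3 : ∀ g' : π.ker, ∑ i, a i (x + g) * b i (y + g') = Φ (x + y) := by
        intro g'
        rw [← hab]
        have h4 : x + (g : G) + (y + (g' : G)) = x + y + ((g : G) + (g' : G)) := by abel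
        rw [h4]
        apply hΦ
        rw [map_add, (AddMonoidHom.mem_ker).1 g.2, (AddMonoidHom.mem_ker).1 g'.2, add_zero]
      simp only [h3, Finset.sum_const, Finset.card_univ, nsmul_eq_mul, c]
    simp only [h2, Finset.sum_const, Finset.card_univ, nsmul_eq_mul]
    ring
  have htt' : t' = (c ^ 2 : ℕ) • t := by
    apply hM.inj2
    funext z
    obtain ⟨x, y⟩ := z
    rw [map_nsmul, hmut', Pi.smul_apply, hmut, nsmul_eq_mul]
    push_cast
    ring
  let P : H ⊗[Rl l] H →ₗ[Rl l] H ⊗[Rl l] H := TensorProduct.map p p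
  have hPt' : P t' = t' := by
    have hTA : ∀ i, p (TA i) = TA i := fun i => hpid _ (fun x g hg => Quot_T_inv π (a i) x g hg)
    have hTB : ∀ i, p (TB i) = TB i := fun i => hpid _ (fun x g hg => Quot_T_inv π (b i) x g hg)
    simp only [P, t', map_sum, TensorProduct.map_tmul, hTA, hTB]
  have hPt : ∀ x y, mu H.val H.val (P t) (x, y) = Φ (x + y) := by
    intro x y
    have h1 : (c ^ 2 : ℕ) • P t = (c ^ 2 : ℕ) • t := by
      rw [← map_nsmul, ← htt', hPt']
    have h2 : mu H.val H.val ((c ^ 2 : ℕ) • P t) (x, y) = mu H.val H.val ((c ^ 2 : ℕ) • t) (x, y) := by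
      rw [h1]
    rw [map_nsmul, map_nsmul, Pi.smul_apply, Pi.smul_apply, nsmul_eq_mul, nsmul_eq_mul, hmut] at h2
    have h3 : ((c ^ 2 : ℕ) : Qb) ≠ 0 := by
      push_cast
      exact pow_ne_zero 2 hc
    exact mul_left_cancel₀ h3 h2
  refine ⟨n, fun i => (p (A i) : G → Qb), fun i => (p (B i) : G → Qb), fun i => (p (A i)).2,
    fun i => (p (B i)).2, fun i => hpN (A i), fun i => hpN (B i), fun x y => ?_⟩
  rw [← hPt x y]
  simp [P, t, map_sum, Finset.sum_apply]

end QuotAux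

/-- **H17.** quotients of orders. -/
theorem stmt_Quot (h4 : Stmt_Rl) (h9 : Stmt_ModelOrder) (h14 : Stmt_Trace) (h15 : Stmt_SpanTop)
    (h16 : Stmt_Retract) : Stmt_Quot := by
  intro l hl G G'' _ _ _ act act'' H π hπ heq hker hO
  have hmem : ∀ ψ : G'' → Qb, ψ ∈ H.comap (pull (Rl l) Qb π) ↔ (fun x => ψ (π x)) ∈ H :=
    fun ψ => Iff.rfl
  have hT : ∀ φ ∈ H, Quot_T π φ ∈ H := fun φ hφ =>
    h14 l hl G act H hO π.ker (fun σ x => by
      rw [AddMonoidHom.mem_ker, AddMonoidHom.mem_ker]; exact hker σ x) φ hφ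
  refine ⟨?_, ?_, ?_, ?_, ?_, ?_⟩
  · -- act_surj
    intro σ z
    obtain ⟨y, rfl⟩ := hπ z
    obtain ⟨x, rfl⟩ := hO.act_surj σ y
    exact ⟨π x, (heq σ x).symm⟩
  · -- act_zero
    intro σ
    rw [← map_zero π, ← heq, hO.act_zero]
  · -- (h1)
    intro ψ hψ σ z
    obtain ⟨x, rfl⟩ := hπ z
    rw [← heq]
    exact hO.equiv _ ((hmem ψ).1 hψ) σ x
  · -- (h2)
    have _ : IsPrincipalIdealRing (Rl l) := (h4 l hl).1
    have _ : Module.Finite (Rl l) H := hO.fg
    let f : H.comap (pull (Rl l) Qb π) →ₗ[Rl l] H :=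
      { toFun := fun ψ => ⟨fun x => (ψ : G'' → Qb) (π x), (hmem _).1 ψ.2⟩
        map_add' := fun _ _ => rfl
        map_smul' := fun _ _ => rfl }
    refine Module.Finite.of_injective f ?_
    intro ψ ψ' h
    apply Subtype.ext
    funext z
    obtain ⟨x, rfl⟩ := hπ z
    exact congrFun (congrArg Subtype.val h) x
  · -- (h3)
    intro z w hzw
    obtain ⟨x, rfl⟩ := hπ z
    obtain ⟨y, rfl⟩ := hπ w
    obtain ⟨φ, hφ, hne⟩ := Quot_sep h15 l π H hO.sep x y hzw
    obtain ⟨ψ, hψ⟩ := Quot_descend π hπ (Quot_T π φ) (fun x g hg => Quot_T_inv π φ x g hg)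
    refine ⟨ψ, ?_, ?_⟩
    · rw [hmem]
      have : (fun x => ψ (π x)) = Quot_T π φ := funext hψ
      rw [this]
      exact hT φ hφ
    · rw [hψ, hψ]
      exact hne
  · -- (h4)
    intro ψ hψ
    obtain ⟨n, a, b, ha, hb, hai, hbi, hab⟩ := Quot_comul h4 h9 h14 h16 l hl act H π hker hO
      (fun x => ψ (π x)) ((hmem ψ).1 hψ) (fun x g hg => by
        show ψ (π (x + g)) = ψ (π x)
        rw [map_add, hg, add_zero])
    have hA : ∀ i, ∃ α : G'' → Qb, ∀ x, α (π x) = a i x := fun i => Quot_descend π hπ (a i) (hai i)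
    have hB : ∀ i, ∃ β : G'' → Qb, ∀ x, β (π x) = b i x := fun i => Quot_descend π hπ (b i) (hbi i)
    choose α hα using hA
    choose β hβ using hB
    refine ⟨n, α, β, fun i => ?_, fun i => ?_, fun z w => ?_⟩
    · rw [hmem]
      have : (fun x => α i (π x)) = a i := funext (hα i)
      rw [this]
      exact ha i
    · rw [hmem]
      have : (fun x => β i (π x)) = b i := funext (hβ i)
      rw [this]
      exact hb i
    · obtain ⟨x, rfl⟩ := hπ z
      obtain ⟨y, rfl⟩ := hπ w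
      rw [← map_add]
      simp only [hα, hβ]
      exact hab x y

end Fermat.Agent.FF19.Hopf

end
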