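/-
TEAM FF19 -> S19, block H [HOPF], package H-16 (helper71).
-/
import Fermat.Agent.FF19.Hopf.Interface

set_option autoImplicit false

noncomputable section

namespace Fermat.Agent.FF19.Hopf

open TensorProduct

/-- **H16.** a saturated submodule of a finite module over a PID is a retract. -/
theorem stmt_Retract : Stmt_Retract := by
  intro R M _ _ _ _ _ _ N hN
  have htf : Module.IsTorsionFree R (M ⧸ N) := by
    refine Module.IsTorsionFree.of_smul_eq_zero fun r x hrx => ?_
    by_cases hr : r = 0
    · exact Or.inl hr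
    · right
      obtain ⟨y, rfl⟩ := N.mkQ_surjective x
      have h1 : r • y ∈ N := by
        have : N.mkQ (r • y) = 0 := by rw [map_smul]; exact hrx
        exact (Submodule.Quotient.mk_eq_zero N).1 this
      exact (Submodule.Quotient.mk_eq_zero N).2 (hN r y hr h1)
  have hfree : Module.Free R (M ⧸ N) := Module.free_of_finite_type_torsion_free'
  obtain ⟨s, hs⟩ := Module.projective_lifting_property N.mkQ LinearMap.id N.mkQ_surjective
  refine ⟨LinearMap.id - s ∘ₗ N.mkQ, fun x => ?_, fun x hx => ?_⟩
  · rw [← Submodule.Quotient.mk_eq_zero N]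
    have h1 : N.mkQ (s (N.mkQ x)) = N.mkQ x := LinearMap.congr_fun hs (N.mkQ x)
    have h2 : N.mkQ ((LinearMap.id - s ∘ₗ N.mkQ : M →ₗ[R] M) x) = 0 := by
      simp only [LinearMap.sub_apply, LinearMap.id_apply, LinearMap.comp_apply, map_sub, h1,
        sub_self]
    exact h2
  · have h1 : N.mkQ x = 0 := (Submodule.Quotient.mk_eq_zero N).2 hx
    simp only [LinearMap.sub_apply, LinearMap.id_apply, LinearMap.comp_apply, h1, map_zero,
      sub_zero]

end Fermat.Agent.FF19.Hopf

end
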