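/-
TEAM FF19 -> S19 (+ S32), block H [HOPF], H15 : the span of a separating algebra of functions on a
finite set is everything (task 1751).
-/
import Fermat.Agent.FF19.Hopf.Interface

set_option autoImplicit false

noncomputable section

namespace Fermat.Agent.FF19.Hopf

open TensorProduct

theorem stmt_SpanTop : Stmt_SpanTop := by
  intro R K _ _ _ X _ H hsep
  classical
  have := Fintype.ofFinite X
  set B : Subalgebra K (X → K) := Algebra.adjoin K (H : Set (X → K)) with hB
  have hspan : Submodule.span K (H : Set (X → K)) = Subalgebra.toSubmodule B := by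
    rw [hB, Algebra.adjoin_eq_span]
    congr 1
    have h0 : (H : Set (X → K))
        = ((H.toSubsemiring.toSubmonoid : Submonoid (X → K)) : Set (X → K)) := rfl
    rw [h0, Submonoid.closure_eq]
  have hδ : ∀ x : X, (Pi.single x 1 : X → K) ∈ B := by
    intro x
    choose! φ hφH hφ using hsep x
    have h1 : (∏ y ∈ Finset.univ.erase x,
        ((φ y x - φ y y)⁻¹ • (φ y - algebraMap K (X → K) (φ y y)))) ∈ B := by
      refine Subalgebra.prod_mem _ fun y hy => ?_
      exact Subalgebra.smul_mem _ (Subalgebra.sub_mem _
        (Algebra.subset_adjoin (hφH y (Finset.ne_of_mem_erase hy).symm))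
        (Subalgebra.algebraMap_mem _ _)) _
    convert h1 using 1
    funext z
    rw [Finset.prod_apply]
    by_cases hz : z = x
    · subst hz
      rw [Pi.single_eq_same]
      symm
      refine Finset.prod_eq_one fun y hy => ?_
      have h2 : φ y z - φ y y ≠ 0 := sub_ne_zero.2 (hφ y (Finset.ne_of_mem_erase hy).symm)
      rw [Pi.smul_apply, Pi.sub_apply, Pi.algebraMap_apply, Algebra.algebraMap_self_apply,
        smul_eq_mul, inv_mul_cancel₀ h2]
    · rw [Pi.single_eq_of_ne hz]
      symm
      refine Finset.prod_eq_zero (Finset.mem_erase.2 ⟨hz, Finset.mem_univ z⟩) ?_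
      rw [Pi.smul_apply, Pi.sub_apply, Pi.algebraMap_apply, Algebra.algebraMap_self_apply,
        sub_self, smul_zero]
  rw [hspan, eq_top_iff]
  intro F _
  have hF : F = ∑ x, F x • (Pi.single x 1 : X → K) := by
    funext z
    rw [Finset.sum_apply, Finset.sum_eq_single z]
    · rw [Pi.smul_apply, Pi.single_eq_same, smul_eq_mul, mul_one]
    · intro b _ hb
      rw [Pi.smul_apply, Pi.single_eq_of_ne (Ne.symm hb), smul_zero]
    · intro h
      exact absurd (Finset.mem_univ z) h
  rw [hF]
  exact Submodule.sum_mem _ fun x _ => Submodule.smul_mem _ _ (hδ x)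

end Fermat.Agent.FF19.Hopf

end

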