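/-
TEAM FF19 -> S19 (+ S32), block H [HOPF].  H12 + H13: subobjects and isomorphisms.
-/
import Fermat.Agent.FF19.Hopf.Interface

set_option autoImplicit false

noncomputable section

namespace Fermat.Agent.FF19.Hopf

open TensorProduct

/-- H12. subobjects. -/
theorem stmt_Sub : Stmt_Sub := by
  intro l G G' _ _ act act' H j hj hsurj heq hH
  refine ⟨hsurj, ?_, ?_, ?_, ?_, ?_⟩
  · intro σ
    apply hj
    rw [heq, map_zero, hH.act_zero]
  · intro φ hφ σ x
    obtain ⟨ψ, hψ, rfl⟩ := (Subalgebra.mem_map).1 hφ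
    have h1 := hH.equiv ψ hψ σ (j x)
    simp only [pull_apply, heq]
    exact h1
  · have := hH.fg
    let f : H →ₗ[Rl l] (H.map (pull (Rl l) Qb j)) :=
      { toFun := fun φ => ⟨pull (Rl l) Qb j φ, (Subalgebra.mem_map).2 ⟨φ, φ.2, rfl⟩⟩
        map_add' := fun a b => by
          apply Subtype.ext
          simp
        map_smul' := fun r a => by
          apply Subtype.ext
          simp }
    refine Module.Finite.of_surjective f ?_
    rintro ⟨φ, hφ⟩
    obtain ⟨ψ, hψ, rfl⟩ := (Subalgebra.mem_map).1 hφ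
    exact ⟨⟨ψ, hψ⟩, rfl⟩
  · intro x y hxy
    obtain ⟨φ, hφ, hne⟩ := hH.sep (j x) (j y) (fun h => hxy (hj h))
    exact ⟨pull (Rl l) Qb j φ, (Subalgebra.mem_map).2 ⟨φ, hφ, rfl⟩, hne⟩
  · intro φ hφ
    obtain ⟨ψ, hψ, rfl⟩ := (Subalgebra.mem_map).1 hφ
    obtain ⟨n, a, b, ha, hb, hab⟩ := hH.comul ψ hψ
    refine ⟨n, fun i => pull (Rl l) Qb j (a i), fun i => pull (Rl l) Qb j (b i),
      fun i => (Subalgebra.mem_map).2 ⟨a i, ha i, rfl⟩,
      fun i => (Subalgebra.mem_map).2 ⟨b i, hb i, rfl⟩, ?_⟩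
    intro x y
    simp only [pull_apply, map_add]
    exact hab (j x) (j y)

/-- H13. `IsFlatMod` is invariant under equivariant isomorphisms. -/
theorem stmt_FlatIso : Stmt_FlatIso := by
  intro l W W' _ _ act act' j hj hW
  obtain ⟨H, i1, i2, hfin, hflat, hco, e, hadd, hact⟩ := hW
  refine ⟨H, i1, i2, hfin, hflat, hco, e.trans j.toEquiv, ?_, ?_⟩
  · intro f g
    change j (e (f * g)) = j (e f) + j (e g)
    rw [hadd, map_add]
  · intro σ f g hfg
    change j (e g) = act' σ (j (e f))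
    rw [hact σ f g hfg, hj]

end Fermat.Agent.FF19.Hopf

end
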