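/-
TEAM FF19 -> S19 (+ S32), block H [HOPF] (architect helper71).  H14 : the trace over a stable subgroup (helper9).
-/
import Fermat.Agent.FF19.Hopf.Interface

set_option autoImplicit false

noncomputable section

namespace Fermat.Agent.FF19.Hopf

open TensorProduct

/-- an element of `ℚ̄`, fixed by `G_ℚ` and integral over `ℤ_(l)`, is in `ℤ_(l)`. -/
theorem Trace_mem_Rl (h4 : Stmt_Rl) {l : ℕ} (hl : l.Prime) (β : Qb) (hfix : ∀ σ : GQ, σ β = β)
    (hint : IsIntegral (Rl l) β) : ∃ r : Rl l, algebraMap (Rl l) Qb r = β := by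
  have hgal : IsGalois ℚ Qb := by
    have : Algebra.IsAlgebraic ℚ (AlgebraicClosure ℚ) := AlgebraicClosure.isAlgebraic ℚ
    have : IsAlgClosure ℚ (AlgebraicClosure ℚ) := ⟨inferInstance, inferInstance⟩
    have : Normal ℚ (AlgebraicClosure ℚ) := IsAlgClosure.normal ℚ (AlgebraicClosure ℚ)
    exact ⟨⟩
  obtain ⟨q, rfl⟩ : β ∈ Set.range (algebraMap ℚ Qb) :=
    (InfiniteGalois.mem_range_algebraMap_iff_fixed β).2 hfix
  have hq : IsIntegral (Rl l) q := (isIntegral_algebraMap_iff (algebraMap ℚ Qb).injective).1 hint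
  exact ⟨⟨q, (h4 l hl).2.2 q hq⟩, rfl⟩

/-- the values of the elements of an order are integral. -/
theorem Trace_isIntegral {l : ℕ} {G : Type} [AddCommGroup G] {act : GQ → G → G}
    {H : Subalgebra (Rl l) (G → Qb)} (hH : IsOrder l G act H) {φ : G → Qb} (hφ : φ ∈ H) (x : G) :
    IsIntegral (Rl l) (φ x) := by
  have := hH.fg
  have h1 : IsIntegral (Rl l) (⟨φ, hφ⟩ : H) := IsIntegral.of_finite (Rl l) _
  exact h1.map ((Pi.evalAlgHom (Rl l) (fun _ => Qb) x).comp H.val)

/-- a surjection of `G` preserving `G'` permutes `G'`. -/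
theorem Trace_sum_act {G : Type} [AddCommGroup G] [Finite G] (f : G → G)
    (hf : Function.Surjective f) (G' : AddSubgroup G) (hG : ∀ x, f x ∈ G' ↔ x ∈ G') (b : G → Qb)
    [Fintype G'] : ∑ g : G', b (f g) = ∑ g : G', b g := by
  have hinj : Function.Injective f := Finite.injective_iff_surjective.2 hf
  let F : G' → G' := fun g => ⟨f g, (hG g).2 g.2⟩
  have hF : Function.Bijective F := by
    apply Finite.injective_iff_bijective.1
    intro x y h
    exact Subtype.ext (hinj (congrArg Subtype.val h))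
  exact hF.sum_comp (fun g : G' => b g)

theorem stmt_Trace (h4 : Stmt_Rl) : Stmt_Trace := by
  intro l hl G _ _ act H hH G' hG' φ hφ
  obtain ⟨n, a, b, ha, hb, hab⟩ := hH.comul φ hφ
  have : Fintype G' := Fintype.ofFinite G'
  have hβ : ∀ i, ∃ r : Rl l, algebraMap (Rl l) Qb r = ∑ g : G', b i g := by
    intro i
    apply Trace_mem_Rl h4 hl
    · intro σ
      rw [map_sum, ← Trace_sum_act (act σ) (hH.act_surj σ) G' (hG' σ) (b i)]
      exact Finset.sum_congr rfl (fun g _ => (hH.equiv (b i) (hb i) σ g).symm)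
    · exact IsIntegral.sum _ (fun g _ => Trace_isIntegral hH (hb i) g)
  choose r hr using hβ
  have key : (fun x => ∑ᶠ g : G', φ (x + g)) = ∑ i, r i • a i := by
    funext x
    rw [finsum_eq_sum_of_fintype, Finset.sum_apply]
    simp only [hab, Pi.smul_apply]
    rw [Finset.sum_comm]
    refine Finset.sum_congr rfl (fun i _ => ?_)
    rw [← Finset.mul_sum, ← hr i, Algebra.smul_def, mul_comm]
  rw [key]
  exact H.sum_mem (fun i _ => H.smul_mem (ha i) (r i))

end Fermat.Agent.FF19.Hopf

end
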