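/-
TEAM FF19 -> S19 (+ S32), block H [HOPF] (helper71).  ALL STATEMENTS OF BLOCK H, UNCONDITIONALLY.

* `all_Criterion : IsOrder l G act H → IsFlatMod l G act` (`G` finite, `l` prime);
* `all_Sub`, `all_Quot`, `all_Converse`, `all_FlatIso`, `all_ComulAdjoin`;
* closure of `IsFlatMod` itself: `flat_sub`, `flat_quot` (for S32).
-/
import Fermat.Agent.FF19.Hopf.Criterion
import Fermat.Agent.FF19.Hopf.KIndInj
import Fermat.Agent.FF19.Hopf.KIndMu
import Fermat.Agent.FF19.Hopf.Descent
import Fermat.Agent.FF19.Hopf.RlFacts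
import Fermat.Agent.FF19.Hopf.KIndOrder
import Fermat.Agent.FF19.Hopf.Counit
import Fermat.Agent.FF19.Hopf.Anti
import Fermat.Agent.FF19.Hopf.ComulAdjoin
import Fermat.Agent.FF19.Hopf.ModelOrder
import Fermat.Agent.FF19.Hopf.Points
import Fermat.Agent.FF19.Hopf.Sub
import Fermat.Agent.FF19.Hopf.Trace
import Fermat.Agent.FF19.Hopf.SpanTop
import Fermat.Agent.FF19.Hopf.Retract
import Fermat.Agent.FF19.Hopf.Quot
import Fermat.Agent.FF19.Hopf.Converse

set_option autoImplicit false

noncomputable section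

namespace Fermat.Agent.FF19.Hopf

theorem all_KIndOrder : Stmt_KIndOrder := stmt_KIndOrder stmt_Rl stmt_Descent

theorem all_Counit : Stmt_Counit := stmt_Counit stmt_Rl

theorem all_Anti : Stmt_Anti := stmt_Anti all_Counit

theorem all_ModelOrder : Stmt_ModelOrder :=
  stmt_ModelOrder stmt_KIndInj stmt_KIndMu all_KIndOrder all_Counit all_Anti

theorem all_Points : Stmt_Points := stmt_Points all_KIndOrder

/-- **THE CRITERION**, unconditionally. -/
theorem all_Criterion : Stmt_Criterion := stmt_Criterion all_KIndOrder all_ModelOrder all_Points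

theorem all_Sub : Stmt_Sub := stmt_Sub

theorem all_FlatIso : Stmt_FlatIso := stmt_FlatIso

theorem all_ComulAdjoin : Stmt_ComulAdjoin := stmt_ComulAdjoin

theorem all_Trace : Stmt_Trace := stmt_Trace stmt_Rl

theorem all_Quot : Stmt_Quot :=
  stmt_Quot stmt_Rl all_ModelOrder all_Trace stmt_SpanTop stmt_Retract

theorem all_Converse : Stmt_Converse := stmt_Converse

/-- `IsFlatMod` passes to subobjects. -/
theorem flat_sub {l : ℕ} (hl : l.Prime) {W W' : Type} [AddCommGroup W] [AddCommGroup W'] [Finite W']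
    {act : GQ → W → W} {act' : GQ → W' → W'} (hs : ∀ σ, Function.Surjective (act σ))
    (h0 : ∀ σ, act σ 0 = 0) (j : W' →+ W) (hj : Function.Injective j)
    (hs' : ∀ σ, Function.Surjective (act' σ)) (hjact : ∀ σ x, j (act' σ x) = act σ (j x))
    (h : IsFlatMod l W act) : IsFlatMod l W' act' := by
  obtain ⟨H, hH⟩ := all_Converse l W act hs h0 h
  exact all_Criterion l hl W' act' _ (all_Sub l W W' act act' H j hj hs' hjact hH)

/-- `IsFlatMod` passes to quotients. -/
theorem flat_quot {l : ℕ} (hl : l.Prime) {W W'' : Type} [AddCommGroup W] [Finite W]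
    [AddCommGroup W''] {act : GQ → W → W} {act'' : GQ → W'' → W''}
    (hs : ∀ σ, Function.Surjective (act σ)) (h0 : ∀ σ, act σ 0 = 0) (π : W →+ W'')
    (hπ : Function.Surjective π) (hπact : ∀ σ x, π (act σ x) = act'' σ (π x))
    (hker : ∀ σ x, π (act σ x) = 0 ↔ π x = 0) (h : IsFlatMod l W act) :
    IsFlatMod l W'' act'' := by
  obtain ⟨H, hH⟩ := all_Converse l W act hs h0 h
  have : Finite W'' := Finite.of_surjective π hπ
  exact all_Criterion l hl W'' act'' _ (all_Quot l hl W W'' act act'' H π hπ hπact hker hH)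

end Fermat.Agent.FF19.Hopf

end
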