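/-
TEAM FF19 -> S19 (+ S32), block H [HOPF].  H18 : products of orders (`Stmt_Prod`).  helper50.
-/
import Fermat.Agent.FF19.Hopf.Interface

set_option autoImplicit false

noncomputable section

namespace Fermat.Agent.FF19.Hopf

open TensorProduct

section Abs

variable {R K : Type} [CommRing R] [Field K] [Algebra R K] {G : Type} [AddCommGroup G]

/-- `HasComul` with an arbitrary finite index type. -/
lemma Prod_hasComul_of_fintype (H : Subalgebra R (G → K)) (φ : G → K) (ι : Type) [Fintype ι]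
    (a b : ι → (G → K)) (ha : ∀ i, a i ∈ H) (hb : ∀ i, b i ∈ H)
    (h : ∀ x y, φ (x + y) = ∑ i, a i x * b i y) : HasComul H φ := by
  refine ⟨Fintype.card ι, a ∘ (Fintype.equivFin ι).symm, b ∘ (Fintype.equivFin ι).symm,
    fun i => ha _, fun i => hb _, fun x y => ?_⟩
  rw [h x y]
  exact ((Fintype.equivFin ι).symm.sum_comp (fun i => a i x * b i y)).symm

lemma Prod_hasComul_zero (H : Subalgebra R (G → K)) : HasComul H 0 :=
  ⟨0, fun _ => 0, fun _ => 0, fun i => i.elim0, fun i => i.elim0, fun x y => by simp⟩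

lemma Prod_hasComul_add (H : Subalgebra R (G → K)) {φ ψ : G → K} (hφ : HasComul H φ)
    (hψ : HasComul H ψ) : HasComul H (φ + ψ) := by
  obtain ⟨n, a, b, ha, hb, h⟩ := hφ
  obtain ⟨m, a', b', ha', hb', h'⟩ := hψ
  refine Prod_hasComul_of_fintype H _ (Fin n ⊕ Fin m) (Sum.elim a a') (Sum.elim b b') ?_ ?_ ?_
  · rintro (i | i)
    · exact ha i
    · exact ha' i
  · rintro (i | i)
    · exact hb i
    · exact hb' i
  · intro x y
    rw [Fintype.sum_sum_type, Pi.add_apply, h x y, h' x y]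
    rfl

end Abs

/-- H18. -/
theorem stmt_Prod : Stmt_Prod := by
  intro l G₁ G₂ _ _ act₁ act₂ H₁ H₂ h₁ h₂
  refine ⟨?_, ?_, ?_, ?_, ?_, ?_⟩
  · rintro σ ⟨z₁, z₂⟩
    obtain ⟨x₁, rfl⟩ := h₁.act_surj σ z₁
    obtain ⟨x₂, rfl⟩ := h₂.act_surj σ z₂
    exact ⟨(x₁, x₂), rfl⟩
  · intro σ
    show (act₁ σ 0, act₂ σ 0) = 0
    rw [h₁.act_zero, h₂.act_zero]
    rfl
  · intro φ hφ σ x
    obtain ⟨t, rfl⟩ := (AlgHom.mem_range _).1 hφ
    clear hφ
    induction t using TensorProduct.induction_on with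
    | zero => simp
    | tmul a b =>
      rw [mu_tmul, mu_tmul, map_mul]
      exact congrArg₂ (· * ·) (h₁.equiv a a.2 σ x.1) (h₂.equiv b b.2 σ x.2)
    | add s t hs ht =>
      rw [map_add, Pi.add_apply, Pi.add_apply, hs, ht, map_add]
  · have := h₁.fg
    have := h₂.fg
    exact Module.Finite.of_surjective (mu H₁.val H₂.val).rangeRestrict.toLinearMap
      (mu H₁.val H₂.val).rangeRestrict_surjective
  · intro x y hxy
    by_cases h1 : x.1 = y.1
    · have h2 : x.2 ≠ y.2 := fun h2 => hxy (Prod.ext h1 h2)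
      obtain ⟨φ, hφ, hne⟩ := h₂.sep _ _ h2
      refine ⟨_, AlgHom.mem_range_self _ ((1 : H₁) ⊗ₜ[Rl l] (⟨φ, hφ⟩ : H₂)), ?_⟩
      rw [mu_tmul, mu_tmul]
      simpa using hne
    · obtain ⟨φ, hφ, hne⟩ := h₁.sep _ _ h1
      refine ⟨_, AlgHom.mem_range_self _ ((⟨φ, hφ⟩ : H₁) ⊗ₜ[Rl l] (1 : H₂)), ?_⟩
      rw [mu_tmul, mu_tmul]
      simpa using hne
  · intro φ hφ
    obtain ⟨t, rfl⟩ := (AlgHom.mem_range _).1 hφ
    clear hφ
    induction t using TensorProduct.induction_on with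
    | zero =>
      rw [map_zero]
      exact Prod_hasComul_zero _
    | tmul a b =>
      obtain ⟨n, a₁, a₂, ha₁, ha₂, ha⟩ := h₁.comul a a.2
      obtain ⟨m, b₁, b₂, hb₁, hb₂, hb⟩ := h₂.comul b b.2
      refine Prod_hasComul_of_fintype _ _ (Fin n × Fin m)
        (fun i => mu H₁.val H₂.val ((⟨a₁ i.1, ha₁ i.1⟩ : H₁) ⊗ₜ[Rl l] (⟨b₁ i.2, hb₁ i.2⟩ : H₂)))
        (fun i => mu H₁.val H₂.val ((⟨a₂ i.1, ha₂ i.1⟩ : H₁) ⊗ₜ[Rl l] (⟨b₂ i.2, hb₂ i.2⟩ : H₂)))
        (fun i => AlgHom.mem_range_self _ _) (fun i => AlgHom.mem_range_self _ _) ?_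
      intro x y
      simp only [mu_tmul]
      show (a : G₁ → Qb) (x.1 + y.1) * (b : G₂ → Qb) (x.2 + y.2) = _
      rw [ha, hb, Finset.sum_mul_sum, Fintype.sum_prod_type]
      refine Finset.sum_congr rfl fun i _ => Finset.sum_congr rfl fun j _ => ?_
      show a₁ i x.1 * a₂ i y.1 * (b₁ j x.2 * b₂ j y.2) = a₁ i x.1 * b₁ j x.2 * (a₂ i y.1 * b₂ j y.2)
      ring
    | add s t hs ht =>
      rw [map_add]
      exact Prod_hasComul_add _ hs ht

end Fermat.Agent.FF19.Hopf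

end
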