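/-
TEAM FF19 -> S19 (+ S32), block H [HOPF], task H-4: the ring `ℤ_(l)` is a PID with fraction field `ℚ`, integrally
closed (`Stmt_Rl`).
-/
import Fermat.Agent.FF19.Hopf.Interface

set_option autoImplicit false

noncomputable section

namespace Fermat.Agent.FF19.Hopf

open TensorProduct

theorem RlFacts_intCast_mem (l : ℕ) (a : ℤ) : (a : ℚ) ∈ Rl l := intCast_mem (Rl l) a

theorem RlFacts_inv_mem {l : ℕ} (hl : l.Prime) {a : ℤ} (ha : ¬ (l : ℤ) ∣ a) :
    ((a : ℚ)⁻¹) ∈ Rl l := by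
  change ((a : ℚ)⁻¹).den.Coprime l
  rw [Rat.inv_intCast_den]
  split_ifs with h
  · simp
  · refine Nat.Coprime.symm ((Nat.Prime.coprime_iff_not_dvd hl).2 ?_)
    rwa [← Int.natCast_dvd]

/-- the multiplicative set of the integers prime to `l`. -/
def RlFacts_M {l : ℕ} (hl : l.Prime) : Submonoid ℤ where
  carrier := {a | ¬ (l : ℤ) ∣ a}
  one_mem' := by
    intro h
    have h1 := Int.natCast_dvd_natCast.1 (by simpa using h : (l : ℤ) ∣ ((1 : ℕ) : ℤ))
    exact hl.one_lt.ne' (Nat.dvd_one.1 h1)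
  mul_mem' := by
    intro a b ha hb h
    rcases (Nat.prime_iff_prime_int.1 hl).dvd_or_dvd h with h | h
    · exact ha h
    · exact hb h

theorem RlFacts_algebraMap (l : ℕ) (a : ℤ) : ((algebraMap ℤ (Rl l) a : Rl l) : ℚ) = (a : ℚ) := by
  simp

theorem RlFacts_isLocalization {l : ℕ} (hl : l.Prime) : IsLocalization (RlFacts_M hl) (Rl l) where
  map_units y := by
    have hy : ¬ (l : ℤ) ∣ (y : ℤ) := y.2
    have hy0 : ((y : ℤ) : ℚ) ≠ 0 := by
      intro h
      have : (y : ℤ) = 0 := by exact_mod_cast h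
      exact hy (this ▸ dvd_zero _)
    refine IsUnit.of_mul_eq_one (⟨((y : ℤ) : ℚ)⁻¹, RlFacts_inv_mem hl hy⟩ : Rl l) ?_
    apply Subtype.ext
    rw [Subring.coe_mul, RlFacts_algebraMap, Subring.coe_one]
    exact mul_inv_cancel₀ hy0
  surj z := by
    have hz : (z : ℚ).den.Coprime l := z.2
    refine ⟨((z : ℚ).num, ⟨((z : ℚ).den : ℤ), ?_⟩), ?_⟩
    · intro h
      have h1 : l ∣ (z : ℚ).den := Int.natCast_dvd_natCast.1 h
      have h2 : l ∣ Nat.gcd (z : ℚ).den l := Nat.dvd_gcd h1 dvd_rfl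
      rw [hz.gcd_eq_one] at h2
      exact hl.one_lt.ne' (Nat.dvd_one.1 h2)
    · apply Subtype.ext
      rw [Subring.coe_mul, RlFacts_algebraMap, RlFacts_algebraMap]
      push_cast
      exact Rat.mul_den_eq_num _
  exists_of_eq {x y} h := by
    refine ⟨1, ?_⟩
    have h1 := congrArg (fun t : Rl l => (t : ℚ)) h
    simp only [RlFacts_algebraMap] at h1
    have : x = y := by exact_mod_cast h1
    rw [this]

theorem RlFacts_pid {l : ℕ} (hl : l.Prime) : IsPrincipalIdealRing (Rl l) := by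
  have := RlFacts_isLocalization hl
  refine ⟨fun I => ?_⟩
  have h := IsLocalization.map_under (RlFacts_M hl) (Rl l) I
  obtain ⟨a, ha⟩ := (IsPrincipalIdealRing.principal (Ideal.under ℤ I)).principal
  rw [ha, ← Ideal.span, Ideal.map_span, Set.image_singleton] at h
  exact ⟨⟨_, h.symm⟩⟩

theorem RlFacts_fraction (l : ℕ) : IsFractionRing (Rl l) ℚ := by
  refine IsFractionRing.of_field (Rl l) ℚ fun z => ?_
  refine ⟨⟨(z.num : ℚ), RlFacts_intCast_mem l _⟩, ⟨((z.den : ℤ) : ℚ), RlFacts_intCast_mem l _⟩, ?_⟩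
  change z = (z.num : ℚ) / ((z.den : ℤ) : ℚ)
  push_cast
  exact (Rat.num_div_den z).symm

/-- H4. -/
theorem stmt_Rl : Stmt_Rl := by
  intro l hl
  have := RlFacts_pid hl
  have := RlFacts_fraction l
  refine ⟨inferInstance, inferInstance, fun q hq => ?_⟩
  obtain ⟨y, rfl⟩ := (IsIntegrallyClosed.isIntegral_iff (R := Rl l) (K := ℚ)).1 hq
  exact y.2

end Fermat.Agent.FF19.Hopf

end
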