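/-
TEAM FF19 -> S19, block H [HOPF] (helper71).  The glue between `IsFlatMod` and the frozen statement S19.
-/
import Fermat.Agent.FF19.Hopf.Defs
import Fermat.Prelude.Def_ModularCurve_ArithmeticGalois

set_option autoImplicit false

noncomputable section

namespace Fermat.Agent.FF19.Hopf

open ModularCurve

/-- the `n`-torsion of `J₀(N)`. -/
abbrev Tors (N : ℕ) [NeZero N] (n : ℤ) : Type := ↥(Submodule.torsionBy ℤ (JZero N) n)

/-- the action of `G_ℚ` on the torsion of `J₀(N)`. -/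
def actTors (N : ℕ) [NeZero N] (n : ℤ) (σ : GQ) (x : Tors N n) : Tors N n :=
  ⟨σ • (x : JZero N), by
    have hx : n • (x : JZero N) = 0 := (Submodule.mem_torsionBy_iff _ _).1 x.2
    rw [Submodule.mem_torsionBy_iff]
    have h2 := (DistribSMul.toAddMonoidHom (JZero N) σ).map_zsmul n (x : JZero N)
    rw [hx, map_zero] at h2
    exact h2.symm⟩

@[simp] lemma coe_actTors (N : ℕ) [NeZero N] (n : ℤ) (σ : GQ) (x : Tors N n) :
    ((actTors N n σ x : Tors N n) : JZero N) = σ • (x : JZero N) := rfl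

lemma actTors_surj (N : ℕ) [NeZero N] (n : ℤ) (σ : GQ) : Function.Surjective (actTors N n σ) := by
  intro y
  refine ⟨actTors N n σ⁻¹ y, Subtype.ext ?_⟩
  simp

lemma actTors_zero (N : ℕ) [NeZero N] (n : ℤ) (σ : GQ) : actTors N n σ 0 = 0 :=
  Subtype.ext (by simp)

lemma actTors_add (N : ℕ) [NeZero N] (n : ℤ) (σ : GQ) (x y : Tors N n) :
    actTors N n σ (x + y) = actTors N n σ x + actTors N n σ y :=
  Subtype.ext (by simp)

/-- **the frozen statement S19 from `IsFlatMod`.** -/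
theorem s19_of_flat (p : ℕ) [NeZero p] (ℓ : ℕ) (k : ℕ)
    (h : IsFlatMod ℓ (Tors p ((ℓ : ℤ) ^ k)) (actTors p ((ℓ : ℤ) ^ k))) :
    ∃ (H : Type) (_ : CommRing H) (_ : HopfAlgebra (GaloisRep.ratLocalizedAt ℓ) H),
      Module.Finite (GaloisRep.ratLocalizedAt ℓ) H ∧ Module.Flat (GaloisRep.ratLocalizedAt ℓ) H ∧
      Coalgebra.IsCocomm (GaloisRep.ratLocalizedAt ℓ) H ∧
      ∃ e : WithConv (H →ₐ[GaloisRep.ratLocalizedAt ℓ] AlgebraicClosure ℚ) ≃
          ↥(Submodule.torsionBy ℤ (JZero p) ((ℓ : ℤ) ^ k)),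
        (∀ f g, e (f * g) = e f + e g) ∧
        ∀ (σ : AlgebraicClosure ℚ ≃ₐ[ℚ] AlgebraicClosure ℚ)
          (f g : WithConv (H →ₐ[GaloisRep.ratLocalizedAt ℓ] AlgebraicClosure ℚ)),
          (∀ h : H, g h = σ (f h)) → ((e g : JZero p)) = σ • (e f : JZero p) := by
  obtain ⟨H, i1, i2, hfin, hflat, hco, e, he, heq⟩ := h
  exact ⟨H, i1, i2, hfin, hflat, hco, e, he,
    fun σ f g hfg => congrArg Subtype.val (heq σ f g hfg)⟩

end Fermat.Agent.FF19.Hopf

end
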